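import Fermat.Agent.Lib.S13.AtTwo.LocalMain2

/-!
# No rational torsion of prime order `≥ 5` at a node in residue characteristic `2` (S13, part B)

`W : η² = x³ + a x² + b x` over `(K, v)` as in `LocalMain2`, `S` a subfield of `K` on which `v` has
value group `ℤ · ord 2` and residue field `𝔽₂`, `ord b = M · ord 2`.  If `n ≥ 5` is a prime unit
with `n` coprime to `2 M`, an `n`-torsion point all of whose multiples have coordinates in `S` is
trivial: it lies in the identity component (component group `ℤ / 2 M`), which has at most three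
`S`-points modulo the kernel of reduction, and the kernel of reduction has no `n`-torsion.
-/

set_option autoImplicit false
set_option linter.unusedSectionVars false
set_option linter.unusedVariables false

open WeierstrassCurve WeierstrassCurve.Affine
open Fermat.Agent.S05Lib

namespace Fermat.Agent.S13Lib.AtTwo

variable {K : Type*} [Field K] [DecidableEq K]

/-- multiples `k • P`, `0 < k < n`, of a nonzero point killed by a prime `n` are nonzero -/
lemma nsmul_ne_zero_of_prime {G : Type*} [AddGroup G] {P : G} (hP0 : P ≠ 0) {n : ℕ}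
    (hp : n.Prime) (hnP : n • P = 0) {k : ℕ} (hk0 : 0 < k) (hkn : k < n) : k • P ≠ 0 := by
  intro hk
  have h1 : addOrderOf P ∣ n := addOrderOf_dvd_of_nsmul_eq_zero hnP
  have h2 : addOrderOf P ∣ k := addOrderOf_dvd_of_nsmul_eq_zero hk
  rcases (Nat.dvd_prime hp).mp h1 with h | h
  · exact hP0 (AddMonoid.addOrderOf_eq_one_iff.mp h)
  · rw [h] at h2
    exact absurd (Nat.le_of_dvd hk0 h2) (not_le.mpr hkn)

section

variable {v : QVal K} {W : WeierstrassCurve K} {a b : K} {h e : ℚ}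

/-- the clamped order of an element of `S` is an integral multiple of `e` -/
lemma fx_rat (S : Subfield K) (hSord : ∀ z ∈ S, z ≠ 0 → ∃ k : ℤ, v.ord z = k * e)
    (he : 0 < e) {M : ℕ} (hM : h = M * e) {x : K} (hx : x ∈ S) :
    ∃ j : ℤ, 0 ≤ j ∧ j ≤ M ∧ fx v h x = j * e := by
  have hh : 0 ≤ h := by rw [hM]; positivity
  rcases fx_cases v h x with c | ⟨t, ht0, hth, c⟩ | c
  · exact ⟨0, le_rfl, by positivity, by rw [fx_of_le hh c]; simp⟩
  · obtain ⟨k, hk⟩ := hSord x hx c.1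
    rw [c.2] at hk
    refine ⟨k, ?_, ?_, by rw [fx_of_is c ht0.le hth.le, hk]⟩
    · have : (0 : ℚ) < k := by
        rw [hk] at ht0
        by_contra hcon
        push Not at hcon
        nlinarith
      exact_mod_cast this.le
    · have : (k : ℚ) < M := by
        rw [hk, hM] at hth
        by_contra hcon
        push Not at hcon
        nlinarith
      exact_mod_cast this.le
  · exact ⟨M, by positivity, le_rfl, by rw [fx_of_ge hh c, hM]; simp⟩

variable (hW : IsLeg W a b) (hc : v.Is (4 * a) 0) (ha₂ : v.Ge (a - 1 / 4) 0)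
  (hb : v.Is b h) (hh : 0 < h) (h2 : v.Is (2 : K) e) (he : 0 < e)
  (S : Subfield K)
  (hSord : ∀ z ∈ S, z ≠ 0 → ∃ k : ℤ, v.ord z = k * e)
  (hSres : ∀ z ∈ S, v.Ge z 0 → v.Gt z 0 ∨ v.Gt (z - 1) 0)
include hW hc ha₂ hb hh h2 he hSord hSres

/-- data of a nonzero `S`-rational torsion point of the identity component -/
lemma rat_data {n : ℕ} (hn : v.Is (n : K) 0) {Q : W.toAffine.Point} (hQ0 : Q ≠ 0)
    (hfP : fP v h Q = 0) (hnQ : n • Q = 0)
    (hQS : ∀ (x η : K) (hxy : W.toAffine.Nonsingular x η), Q = Point.some x η hxy → x ∈ S ∧ η ∈ S) :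
    ∃ (x η : K) (hxy : W.toAffine.Nonsingular x η), Q = Point.some x η hxy ∧ v.Is x 0 ∧
      v.Gt (x - 1) 0 ∧ (v.Gt (η - x / 2) 0 ∨ v.Gt (η - x / 2 - 1) 0) := by
  have h2gt : v.Gt (2 : K) 0 := h2.gt he
  have h20 : (2 : K) ≠ 0 := h2.1
  rcases Q with _ | ⟨x, η, hxy⟩
  · exact absurd rfl hQ0
  · obtain ⟨hxS, hηS⟩ := hQS x η hxy rfl
    have hx : v.Is x 0 := is_x_of_fP_eq_zero hW hc ha₂ hb hh h2gt h20 hn hxy hfP hnQ
    refine ⟨x, η, hxy, rfl, hx, ?_, ?_⟩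
    · rcases hSres x hxS hx.ge with h0 | h0
      · exact absurd h0 (fun hh' => hx.not_gt hh' le_rfl)
      · exact h0
    · have hyS : η - x / 2 ∈ S :=
        S.sub_mem hηS (S.div_mem hxS (by
          have : (2 : K) = ((2 : ℕ) : K) := by norm_num
          rw [this]
          exact natCast_mem S 2))
      exact hSres _ hyS (y_integral2 hW ha₂ (hb.ge' hh.le) h20 hxy hx.ge)

/-- two rational points of the identity component with the same reduction differ by an element of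
the kernel of reduction -/
lemma close_of_rat_data {x₁ η₁ x₂ η₂ : K} (h₁ : W.toAffine.Nonsingular x₁ η₁)
    (h₂ : W.toAffine.Nonsingular x₂ η₂) (hx₁ : v.Is x₁ 0) (hx₁' : v.Gt (x₁ - 1) 0)
    (hx₂' : v.Gt (x₂ - 1) 0)
    (hy : (v.Gt (η₁ - x₁ / 2) 0 ∧ v.Gt (η₂ - x₂ / 2) 0) ∨
      (v.Gt (η₁ - x₁ / 2 - 1) 0 ∧ v.Gt (η₂ - x₂ / 2 - 1) 0)) :
    ∃ τ : ℚ, 0 < τ ∧ InE v τ (Point.some x₂ η₂ h₂ - Point.some x₁ η₁ h₁) := by
  have h2gt : v.Gt (2 : K) 0 := h2.gt he
  have h20 : (2 : K) ≠ 0 := h2.1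
  have hxx : v.Gt (x₂ - x₁) 0 := by
    have : x₂ - x₁ = (x₂ - 1) - (x₁ - 1) := by ring
    rw [this]
    exact hx₂'.sub hx₁'
  have hyy : v.Gt ((η₂ - x₂ / 2) - (η₁ - x₁ / 2)) 0 := by
    rcases hy with ⟨g1, g2⟩ | ⟨g1, g2⟩
    · exact g2.sub g1
    · have : (η₂ - x₂ / 2) - (η₁ - x₁ / 2) = (η₂ - x₂ / 2 - 1) - (η₁ - x₁ / 2 - 1) := by ring
      rw [this]
      exact g2.sub g1
  exact exists_inE_sub_of_close2 hW hc ha₂ (hb.ge' hh.le) h2gt h20 h₁ h₂ hx₁ hxx hyy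

/-- **No `S`-rational `n`-torsion.** -/
theorem eq_zero_of_rational2 {n : ℕ} (hp : n.Prime) (h5 : 5 ≤ n) (hn : v.Is (n : K) 0)
    {M : ℕ} (hM : h = M * e) (hcop : Nat.Coprime n (2 * M))
    {P : W.toAffine.Point}
    (hfix : ∀ (k : ℕ) (x η : K) (hxy : W.toAffine.Nonsingular x η),
      k • P = Point.some x η hxy → x ∈ S ∧ η ∈ S)
    (hnP : n • P = 0) : P = 0 := by
  have h2gt : v.Gt (2 : K) 0 := h2.gt he
  have h20 : (2 : K) ≠ 0 := h2.1
  by_contra hP0
  have hMpos : 0 < M := by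
    rcases Nat.eq_zero_or_pos M with h0 | h0
    · rw [hM, h0] at hh
      simp at hh
    · exact h0
  -- Step 1: `P` lies in the identity component
  have hfP : fP v h P = 0 := by
    rcases P with _ | ⟨x, η, hxy⟩
    · rfl
    · obtain ⟨hxS, _⟩ := hfix 1 x η hxy (one_smul _ _)
      obtain ⟨j, hj0, hjM, hj⟩ := fx_rat S hSord he hM hxS
      obtain ⟨k, hk⟩ := nsmul_fP_mem2 hW hc hb hh h2gt.ge h20 (Point.some x η hxy) hnP
      rw [fP_some] at hk ⊢
      rw [hj, hM] at hk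
      have hk' : (n : ℚ) * j = 2 * M * k := by
        have he0 : e ≠ 0 := he.ne'
        have : e * ((n : ℚ) * j) = e * (2 * M * k) := by linarith
        exact mul_left_cancel₀ he0 this
      have hkZ : (n : ℤ) * j = 2 * M * k := by exact_mod_cast hk'
      have hdvd : ((2 * M : ℕ) : ℤ) ∣ (n : ℤ) * j := ⟨k, by rw [hkZ]; push_cast; ring⟩
      have hcop' : IsCoprime ((2 * M : ℕ) : ℤ) (n : ℤ) :=
        Nat.isCoprime_iff_coprime.mpr hcop.symm
      have hdvd' : ((2 * M : ℕ) : ℤ) ∣ j := hcop'.dvd_of_dvd_mul_left hdvd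
      have hj0' : j = 0 := by
        apply Int.eq_zero_of_dvd_of_nonneg_of_lt hj0 _ hdvd'
        push_cast
        omega
      rw [hj, hj0']
      simp
  -- Step 2: the three multiples `P, 2P, 3P`
  have hn2 : 2 < n := by omega
  have hn3 : 3 < n := by omega
  have hn1 : 1 < n := by omega
  have data : ∀ k : ℕ, 0 < k → k < n →
      ∃ (x η : K) (hxy : W.toAffine.Nonsingular x η), k • P = Point.some x η hxy ∧ v.Is x 0 ∧
        v.Gt (x - 1) 0 ∧ (v.Gt (η - x / 2) 0 ∨ v.Gt (η - x / 2 - 1) 0) := by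
    intro k hk0 hkn
    refine rat_data hW hc ha₂ hb hh h2 he S hSord hSres hn
      (nsmul_ne_zero_of_prime hP0 hp hnP hk0 hkn)
      (fP_nsmul_eq_zero hW hc hb hh h2gt.ge h20 hfP k) ?_ (fun x η hxy hQ => hfix k x η hxy hQ)
    rw [smul_comm, hnP, smul_zero]
  obtain ⟨x₁, η₁, h₁, e₁, hx₁, hx₁', hy₁⟩ := data 1 one_pos hn1
  obtain ⟨x₂, η₂, h₂, e₂, hx₂, hx₂', hy₂⟩ := data 2 two_pos hn2
  obtain ⟨x₃, η₃, h₃, e₃, hx₃, hx₃', hy₃⟩ := data 3 (by norm_num) hn3
  -- Step 3: conclude from a pair with the same reduction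
  have fin : ∀ (m : ℕ), 0 < m → m < n → (∃ τ : ℚ, 0 < τ ∧ InE v τ (m • P)) → False := by
    intro m hm0 hmn ⟨τ, hτ, hin⟩
    have hnm : n • (m • P) = 0 := by rw [smul_comm, hnP, smul_zero]
    have := eq_zero_of_inE_of_nsmul2 hW hc.ge (hb.ge' hh.le) h2gt.ge h20 hτ hin hn hnm
    exact nsmul_ne_zero_of_prime hP0 hp hnP hm0 hmn this
  have e21 : 2 • P - 1 • P = 1 • P := by
    rw [show (2 : ℕ) = 1 + 1 from rfl, add_smul]
    abel
  have e32 : 3 • P - 2 • P = 1 • P := by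
    rw [show (3 : ℕ) = 2 + 1 from rfl, add_smul]
    abel
  have e31 : 3 • P - 1 • P = 2 • P := by
    rw [show (3 : ℕ) = 2 + 1 from rfl, add_smul]
    abel
  have c21 := close_of_rat_data hW hc ha₂ hb hh h2 he S hSord hSres h₁ h₂ hx₁ hx₁' hx₂'
  have c32 := close_of_rat_data hW hc ha₂ hb hh h2 he S hSord hSres h₂ h₃ hx₂ hx₂' hx₃'
  have c31 := close_of_rat_data hW hc ha₂ hb hh h2 he S hSord hSres h₁ h₃ hx₁ hx₁' hx₃'
  rw [← e₂, ← e₁, e21] at c21
  rw [← e₃, ← e₂, e32] at c32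
  rw [← e₃, ← e₁, e31] at c31
  rcases hy₁ with g₁ | g₁ <;> rcases hy₂ with g₂ | g₂ <;> rcases hy₃ with g₃ | g₃
  · exact fin 1 one_pos hn1 (c21 (Or.inl ⟨g₁, g₂⟩))
  · exact fin 1 one_pos hn1 (c21 (Or.inl ⟨g₁, g₂⟩))
  · exact fin 2 two_pos hn2 (c31 (Or.inl ⟨g₁, g₃⟩))
  · exact fin 1 one_pos hn1 (c32 (Or.inr ⟨g₂, g₃⟩))
  · exact fin 1 one_pos hn1 (c32 (Or.inl ⟨g₂, g₃⟩))
  · exact fin 2 two_pos hn2 (c31 (Or.inr ⟨g₁, g₃⟩))
  · exact fin 1 one_pos hn1 (c21 (Or.inr ⟨g₁, g₂⟩))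
  · exact fin 1 one_pos hn1 (c21 (Or.inr ⟨g₁, g₂⟩))

end

end Fermat.Agent.S13Lib.AtTwo
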