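import Fermat.Agent.Lib.S05.Frey
import Fermat.Agent.Lib.S05.QValQbar
import Fermat.Agent.Lib.X015.FixedField
import Fermat.Agent.Lib.Helper6.FrobeniusExists
import Fermat.Agent.Lib.S13.AtTwo.Rational2

/-!
# The Frey curve at `2` (S13, part B)

* `frey_inertia_two_unipotent`: inertia at `2` acts on the `p`-torsion of the Frey curve through
  unipotent matrices: `(σ - 1)² = 0`.
* `frey_torsion_fixed_eq_zero`: the Frey curve has no nonzero rational `p`-torsion point.
-/

set_option autoImplicit false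
set_option linter.unusedSectionVars false
set_option linter.unusedVariables false

open WeierstrassCurve WeierstrassCurve.Affine WeierstrassCurve.Affine.Point
open Fermat.Agent.S05Lib

namespace Fermat.Agent.S13Lib.AtTwo

local notation "Qb" => AlgebraicClosure ℚ

/-! ### `2`-adic orders of integers and rationals -/

section two

variable {A : ValuationSubring Qb} {v : QVal Qb} (hv : QValFor A 2 v)
include hv

lemma ord_two_pos : 0 < v.ord (2 : Qb) := by
  have := hv.ord_q
  simpa using this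

lemma is_two' : v.Is (2 : Qb) (v.ord (2 : Qb)) := QVal.is_ord two_ne_zero

lemma is_int_of_odd {m : ℤ} (hm : Odd m) : v.Is (m : Qb) 0 := by
  apply hv.is_int
  intro h
  have : Even m := (even_iff_two_dvd).mpr (by exact_mod_cast h)
  exact (Int.not_even_iff_odd.mpr hm) this

lemma gt_int_of_even {m : ℤ} (hm : Even m) : v.Gt (m : Qb) 0 := by
  apply hv.gt_int Nat.prime_two
  exact_mod_cast (even_iff_two_dvd).mp hm

/-- the `2`-adic order of a nonzero integer is a natural multiple of `ord 2` -/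
lemma exists_is_int {m : ℤ} (hm : m ≠ 0) :
    ∃ k : ℕ, v.Is (m : Qb) (k * v.ord (2 : Qb)) ∧ (Even m → 0 < k) := by
  obtain ⟨k, t, ht, hmt⟩ := Nat.exists_eq_two_pow_mul_odd (Int.natAbs_ne_zero.mpr hm)
  have ht' : Odd (t : ℤ) := by exact_mod_cast ht
  have h1 : v.Is (((2 : ℤ) ^ k * (t : ℤ) : ℤ) : Qb) (k * v.ord (2 : Qb)) := by
    have := ((is_two' hv).pow k).mul (is_int_of_odd hv ht')
    rw [add_zero] at this
    push_cast
    exact this
  have habs : (m.natAbs : ℤ) = (2 : ℤ) ^ k * (t : ℤ) := by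
    rw [hmt]
    push_cast
    ring
  refine ⟨k, ?_, ?_⟩
  · rcases Int.natAbs_eq m with h | h
    · rw [h, habs]
      exact h1
    · rw [h, habs, Int.cast_neg]
      exact h1.neg
  · intro hev
    rcases Nat.eq_zero_or_pos k with h0 | h0
    · exfalso
      rw [h0, pow_zero, one_mul] at hmt
      have : Odd m.natAbs := hmt ▸ ht
      rw [Int.natAbs_odd] at this
      exact (Int.not_even_iff_odd.mpr this) hev
    · exact h0

/-- the value group on `ℚ` -/
lemma ord_rat {z : Qb} (hz : z ∈ (algebraMap ℚ Qb).fieldRange) (hz0 : z ≠ 0) :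
    ∃ k : ℤ, v.ord z = k * v.ord (2 : Qb) := by
  obtain ⟨q, rfl⟩ := hz
  have hq0 : q ≠ 0 := by
    intro h
    apply hz0
    rw [h, _root_.map_zero]
  have hnum : q.num ≠ 0 := Rat.num_ne_zero.mpr hq0
  have hden : (q.den : ℤ) ≠ 0 := by exact_mod_cast q.den_nz
  obtain ⟨k₁, h₁, _⟩ := exists_is_int hv hnum
  obtain ⟨k₂, h₂, _⟩ := exists_is_int hv hden
  have e : algebraMap ℚ Qb q = (q.num : Qb) / ((q.den : ℤ) : Qb) := by
    conv_lhs => rw [← Rat.num_div_den q]
    simp
  refine ⟨(k₁ : ℤ) - k₂, ?_⟩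
  rw [e, (h₁.div h₂).2]
  push_cast
  ring

/-- the residue field of `ℚ` at `2` is `𝔽₂` -/
lemma res_rat {z : Qb} (hz : z ∈ (algebraMap ℚ Qb).fieldRange) (hz0 : v.Ge z 0) :
    v.Gt z 0 ∨ v.Gt (z - 1) 0 := by
  obtain ⟨q, rfl⟩ := hz
  have e : algebraMap ℚ Qb q = (q.num : Qb) / ((q.den : ℤ) : Qb) := by
    conv_lhs => rw [← Rat.num_div_den q]
    simp
  have hden : (q.den : ℤ) ≠ 0 := by exact_mod_cast q.den_nz
  rcases Int.even_or_odd (q.den : ℤ) with hd | hd
  · -- impossible: then the numerator is odd and the order is negative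
    exfalso
    have hnum : Odd q.num := by
      rcases Int.even_or_odd q.num with hn | hn
      · exfalso
        have h2n : 2 ∣ q.num.natAbs := by
          have := (even_iff_two_dvd).mp hn
          exact Int.natCast_dvd_natCast.mp (by simpa using this)
        have h2d : 2 ∣ q.den := by
          have := (even_iff_two_dvd).mp hd
          exact_mod_cast this
        have := Nat.eq_one_of_dvd_coprimes q.reduced h2n h2d
        omega
      · exact hn
    obtain ⟨k₂, h₂, hk₂⟩ := exists_is_int hv hden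
    have h₁ := is_int_of_odd hv hnum
    have hq := h₁.div h₂
    rw [← e] at hq
    have hk : (0 : ℚ) < k₂ := by exact_mod_cast hk₂ hd
    have := ord_two_pos hv
    exact hq.not_ge hz0 (by nlinarith)
  · have h₂ := is_int_of_odd hv hd
    rcases Int.even_or_odd q.num with hn | hn
    · left
      rw [e]
      have := (gt_int_of_even hv hn).div_is h₂
      simpa using this
    · right
      have e' : algebraMap ℚ Qb q - 1 = ((q.num - (q.den : ℤ) : ℤ) : Qb) / ((q.den : ℤ) : Qb) := by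
        rw [e]
        have : ((q.den : ℤ) : Qb) ≠ 0 := h₂.1
        field_simp
        push_cast
        ring
      rw [e']
      have := (gt_int_of_even hv (hn.sub_odd hd)).div_is h₂
      simpa using this

end two

/-! ### The Legendre form of the minimal model at `2` -/

/-- `η² = x³ + ((bᵖ - aᵖ)/4) x² - (aᵖ bᵖ/16) x`, the Frey curve in the coordinates
`(x, η = y + x/2)`. -/
def leg2 (P : FreyPackage) : WeierstrassCurve ℚ :=
  ⟨0, ((P.b : ℚ) ^ P.p - (P.a : ℚ) ^ P.p) / 4, 0, -((P.a : ℚ) ^ P.p * (P.b : ℚ) ^ P.p) / 16, 0⟩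

/-- the change of variables `(x, η) ↦ (x, η + x/2)` -/
def vc2 : VariableChange ℚ := ⟨1, 0, 1 / 2, 0⟩

lemma freyCurve_eq_leg2 (P : FreyPackage) : P.freyCurve = vc2 • leg2 P := by
  ext
  · simp [FreyPackage.freyCurve, vc2, leg2, variableChange_a₁]
  · simp [FreyPackage.freyCurve, vc2, leg2, variableChange_a₂]
    ring
  · simp [FreyPackage.freyCurve, vc2, leg2, variableChange_a₃]
  · simp [FreyPackage.freyCurve, vc2, leg2, variableChange_a₄]
  · simp [FreyPackage.freyCurve, vc2, leg2, variableChange_a₆]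

lemma isLeg_leg2 (P : FreyPackage) :
    IsLeg ((leg2 P).toAffine⁄Qb) (((P.b : Qb) ^ P.p - (P.a : Qb) ^ P.p) / 4)
      (-((P.a : Qb) ^ P.p * (P.b : Qb) ^ P.p) / 16) where
  a₁ := by simp [leg2]
  a₂ := by simp [leg2]
  a₃ := by simp [leg2]
  a₄ := by simp [leg2]
  a₆ := by simp [leg2]

/-! ### The `2`-adic data of the Frey curve -/

lemma frey_a_odd (P : FreyPackage) : (4 : ℤ) ∣ P.a + 1 := by
  have h : ((P.a + 1 : ℤ) : ZMod 4) = 0 := by
    push_cast
    rw [P.ha4]
    decide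
  exact (ZMod.intCast_zmod_eq_zero_iff_dvd _ 4).mp h

lemma frey_b_even (P : FreyPackage) : Even P.b :=
  (even_iff_two_dvd).mpr ((ZMod.intCast_zmod_eq_zero_iff_dvd P.b 2).1 P.hb2)

lemma frey_a_odd' (P : FreyPackage) : Odd P.a := by
  obtain ⟨k, hk⟩ := frey_a_odd P
  exact ⟨2 * k - 1, by omega⟩

/-- `4 ∣ bᵖ - aᵖ - 1` -/
lemma frey_four_dvd (P : FreyPackage) : (4 : ℤ) ∣ P.b ^ P.p - P.a ^ P.p - 1 := by
  have h1 : (4 : ℤ) ∣ P.a ^ P.p + 1 := by
    have := P.hp_odd.add_dvd_pow_add_pow P.a 1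
    rw [one_pow] at this
    exact dvd_trans (frey_a_odd P) this
  have h2 : (4 : ℤ) ∣ P.b ^ P.p := by
    have hb : (2 : ℤ) ∣ P.b := (even_iff_two_dvd).mp (frey_b_even P)
    have h2p : 2 ≤ P.p := by have := P.hp5; omega
    have : (2 : ℤ) ^ 2 ∣ P.b ^ P.p :=
      dvd_trans (pow_dvd_pow 2 h2p) (pow_dvd_pow_of_dvd hb P.p)
    simpa using this
  have : P.b ^ P.p - P.a ^ P.p - 1 = P.b ^ P.p - (P.a ^ P.p + 1) := by ring
  rw [this]
  exact dvd_sub h2 h1

section data

variable {A : ValuationSubring Qb} {v : QVal Qb} (hv : QValFor A 2 v)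
include hv

/-- the `2`-adic data of the Frey curve: `4 a` is a unit, `a - 1/4` is integral, `ord b = M ord 2`
with `M = p v₂(b) - 4 > 0` prime to `p`. -/
lemma frey_two_data (P : FreyPackage) :
    v.Is (4 * (((P.b : Qb) ^ P.p - (P.a : Qb) ^ P.p) / 4)) 0 ∧
    v.Ge (((P.b : Qb) ^ P.p - (P.a : Qb) ^ P.p) / 4 - 1 / 4) 0 ∧
    ∃ M : ℕ, 0 < M ∧ Nat.Coprime P.p (2 * M) ∧
      v.Is (-((P.a : Qb) ^ P.p * (P.b : Qb) ^ P.p) / 16) (M * v.ord (2 : Qb)) := by
  have h40 : (4 : Qb) ≠ 0 := by norm_num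
  refine ⟨?_, ?_, ?_⟩
  · have hodd : Odd (P.b ^ P.p - P.a ^ P.p) :=
      ((frey_b_even P).pow_of_ne_zero P.hp0).sub_odd ((frey_a_odd' P).pow)
    have := is_int_of_odd hv hodd
    have e : 4 * (((P.b : Qb) ^ P.p - (P.a : Qb) ^ P.p) / 4) = ((P.b ^ P.p - P.a ^ P.p : ℤ) : Qb) := by
      push_cast
      field_simp
    rw [e]
    exact this
  · obtain ⟨N, hN⟩ := frey_four_dvd P
    have e : ((P.b : Qb) ^ P.p - (P.a : Qb) ^ P.p) / 4 - 1 / 4 = (N : Qb) := by
      have : ((P.b ^ P.p - P.a ^ P.p - 1 : ℤ) : Qb) = ((4 * N : ℤ) : Qb) := by rw [hN]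
      push_cast at this
      field_simp
      linear_combination this
    rw [e]
    exact hv.ge_int N
  · obtain ⟨β, hβ, hβpos⟩ := exists_is_int hv P.hb0
    have hβ1 : 0 < β := hβpos (frey_b_even P)
    have hp5 := P.hp5
    have h4le : 4 ≤ P.p * β := by nlinarith
    refine ⟨P.p * β - 4, ?_, ?_, ?_⟩
    · have : 5 ≤ P.p * β := by nlinarith
      omega
    · rw [Nat.Prime.coprime_iff_not_dvd P.pp]
      intro hdvd
      rcases (Nat.Prime.dvd_mul P.pp).mp hdvd with h | h
      · have := Nat.le_of_dvd two_pos h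
        omega
      · have h' : P.p ∣ P.p * β := dvd_mul_right _ _
        have h4 : P.p ∣ 4 := by
          have := Nat.dvd_sub h' h
          have e : P.p * β - (P.p * β - 4) = 4 := by omega
          rwa [e] at this
        have := Nat.le_of_dvd (by norm_num) h4
        omega
    · have ha := is_int_of_odd hv (frey_a_odd' P)
      have h16 : v.Is (16 : Qb) (4 * v.ord (2 : Qb)) := by
        have := (is_two' hv).pow 4
        norm_num at this
        exact this
      have := (((ha.pow P.p).mul (hβ.pow P.p)).neg).div h16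
      convert this using 1
      rw [Nat.cast_sub h4le]
      push_cast
      ring

/-- `(σ - 1)² = 0` on the `p`-torsion of the Legendre form, for `σ` in an inertia group at `2`. -/
theorem leg2_inertia_unipotent (P : FreyPackage) {σ : Qb ≃ₐ[ℚ] Qb}
    (hσ : σ ∈ A.inertiaSubgroupIn ℚ) (Q : ((leg2 P).toAffine⁄Qb).Point) (hQ : P.p • Q = 0) :
    σ • (σ • Q - Q) = σ • Q - Q := by
  obtain ⟨hc, ha₂, M, hM0, hcop, hb⟩ := frey_two_data hv P
  have he := ord_two_pos hv
  have hh : (0 : ℚ) < M * v.ord (2 : Qb) := by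
    have : (0 : ℚ) < M := by exact_mod_cast hM0
    positivity
  have h2gt : v.Gt (2 : Qb) 0 := (is_two' hv).gt he
  have hn : v.Is ((P.p : ℕ) : Qb) 0 :=
    hv.is_prime Nat.prime_two P.pp (by have := P.hp5; omega)
  have hsq : ∀ z : Qb, ∃ y, y ^ 2 = z := fun z => IsAlgClosed.exists_pow_nat_eq z two_pos
  have hσa : (σ : Qb →+* Qb) (((P.b : Qb) ^ P.p - (P.a : Qb) ^ P.p) / 4) =
      ((P.b : Qb) ^ P.p - (P.a : Qb) ^ P.p) / 4 := by
    simp [map_div₀, map_sub, map_pow, map_intCast, map_ofNat]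
  exact map_sub_fixed2 (isLeg_leg2 P) hc ha₂ hb hh h2gt two_ne_zero (hv.inertiaLike (leg2 P) hσ)
    hn P.hp_odd hsq hσa hQ

/-- The Legendre form has no nonzero `p`-torsion point fixed by the whole Galois group. -/
theorem leg2_fixed_eq_zero (P : FreyPackage) (Q : ((leg2 P).toAffine⁄Qb).Point)
    (hQ : P.p • Q = 0) (hfix : ∀ σ : Qb ≃ₐ[ℚ] Qb, σ • Q = Q) : Q = 0 := by
  obtain ⟨hc, ha₂, M, hM0, hcop, hb⟩ := frey_two_data hv P
  have he := ord_two_pos hv
  have hh : (0 : ℚ) < M * v.ord (2 : Qb) := by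
    have : (0 : ℚ) < M := by exact_mod_cast hM0
    positivity
  have hn : v.Is ((P.p : ℕ) : Qb) 0 :=
    hv.is_prime Nat.prime_two P.pp (by have := P.hp5; omega)
  refine eq_zero_of_rational2 (isLeg_leg2 P) hc ha₂ hb hh (is_two' hv) he
    (algebraMap ℚ Qb).fieldRange (fun z hz hz0 => ord_rat hv hz hz0)
    (fun z hz hz0 => res_rat hv hz hz0) P.pp P.hp5 hn rfl hcop ?_ hQ
  intro k x η hxy hk
  have hfixk : ∀ σ : Qb ≃ₐ[ℚ] Qb, σ • (k • Q) = k • Q := by
    intro σ
    have : σ • (k • Q) = k • (σ • Q) :=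
      map_nsmul (Point.map (W' := (leg2 P).toAffine) σ.toAlgHom) k Q
    rw [this, hfix σ]
  have hx : ∀ σ : Qb ≃ₐ[ℚ] Qb, σ x = x ∧ σ η = η := by
    intro σ
    have h1 := hfixk σ
    rw [hk] at h1
    have h2 : ((leg2 P).toAffine⁄Qb).Nonsingular (σ x) (σ η) :=
      ((leg2 P).toAffine.baseChange_nonsingular σ.toAlgHom.injective ..).mpr hxy
    have e2 : σ • (Point.some x η hxy : ((leg2 P).toAffine⁄Qb).Point) =
        Point.some (σ x) (σ η) h2 := rfl
    rw [e2] at h1
    simp only [Point.some.injEq] at h1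
    exact h1
  have hmem : ∀ z : Qb, (∀ σ : Qb ≃ₐ[ℚ] Qb, σ z = z) → z ∈ (algebraMap ℚ Qb).fieldRange := by
    intro z hz
    exact Fermat.Agent.X015.mem_range_of_forall_algEquiv_fixed z hz
  exact ⟨hmem x (fun σ => (hx σ).1), hmem η (fun σ => (hx σ).2)⟩

end data

/-! ### Transport to the Frey curve -/

/-- Transport of "`(σ - 1)² = 0` on the `n`-torsion" along a rational change of variables. -/
theorem torsion_unipotent_of_variableChange (L E : WeierstrassCurve ℚ) (C : VariableChange ℚ)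
    (hE : E = C • L) (σ : Qb ≃ₐ[ℚ] Qb) (n : ℕ)
    (h : ∀ Q : (L.toAffine⁄Qb).Point, n • Q = 0 → σ • (σ • Q - Q) = σ • Q - Q)
    (x : Submodule.torsionBy ℤ (E.toAffine⁄Qb).Point n) : σ • (σ • x - x) = σ • x - x := by
  subst hE
  obtain ⟨φ, hφ⟩ := Fermat.Agent.X015.exists_galois_equivariant_equiv (K := Qb) L C
  apply Subtype.ext
  show σ • (σ • (x : ((C • L).toAffine⁄Qb).Point) - x) = σ • (x : ((C • L).toAffine⁄Qb).Point) - x
  have hx := x.2
  rw [Submodule.mem_torsionBy_iff] at hx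
  have h1 : n • φ.symm (x : ((C • L).toAffine⁄Qb).Point) = 0 := by
    rw [← map_nsmul, ← natCast_zsmul, hx, _root_.map_zero]
  have h2 := congrArg φ (h _ h1)
  rw [hφ, map_sub, hφ, φ.apply_symm_apply] at h2
  exact h2

/-- Transport of "no nonzero Galois-fixed `n`-torsion" along a rational change of variables. -/
theorem torsion_fixed_eq_zero_of_variableChange (L E : WeierstrassCurve ℚ) (C : VariableChange ℚ)
    (hE : E = C • L) (n : ℕ)
    (h : ∀ Q : (L.toAffine⁄Qb).Point, n • Q = 0 → (∀ σ : Qb ≃ₐ[ℚ] Qb, σ • Q = Q) → Q = 0)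
    (x : Submodule.torsionBy ℤ (E.toAffine⁄Qb).Point n)
    (hfix : ∀ σ : Qb ≃ₐ[ℚ] Qb, σ • x = x) : x = 0 := by
  subst hE
  obtain ⟨φ, hφ⟩ := Fermat.Agent.X015.exists_galois_equivariant_equiv (K := Qb) L C
  apply Subtype.ext
  show (x : ((C • L).toAffine⁄Qb).Point) = 0
  have hx := x.2
  rw [Submodule.mem_torsionBy_iff] at hx
  have h1 : n • φ.symm (x : ((C • L).toAffine⁄Qb).Point) = 0 := by
    rw [← map_nsmul, ← natCast_zsmul, hx, _root_.map_zero]
  have h2 : ∀ σ : Qb ≃ₐ[ℚ] Qb, σ • φ.symm (x : ((C • L).toAffine⁄Qb).Point) =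
      φ.symm (x : ((C • L).toAffine⁄Qb).Point) := by
    intro σ
    apply φ.injective
    rw [hφ, φ.apply_symm_apply]
    exact congrArg Subtype.val (hfix σ)
  have h3 := h _ h1 h2
  have := congrArg φ h3
  rwa [φ.apply_symm_apply, _root_.map_zero] at this

end Fermat.Agent.S13Lib.AtTwo

namespace Fermat.Agent.S13Lib

open Fermat.Agent.S13Lib.AtTwo

local notation "Qb" => AlgebraicClosure ℚ

/-- **(B1).** Inertia at `2` acts unipotently on the `p`-torsion of the Frey curve: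
`(σ - 1)² = 0`. -/
theorem frey_inertia_two_unipotent (P : FreyPackage) (A : ValuationSubring Qb)
    (hA : A.LiesOverPrime 2) (σ : Qb ≃ₐ[ℚ] Qb) (hσ : σ ∈ A.inertiaSubgroupIn ℚ)
    (x : Submodule.torsionBy ℤ (P.freyCurve.toAffine⁄Qb).Point P.p) :
    σ • (σ • x - x) = σ • x - x := by
  obtain ⟨v, h1, h2, h3, h4, h5⟩ := exists_qval_of_liesOver A Nat.prime_two hA
  have hv : QValFor A 2 v := ⟨h1, h2, h3, h4, h5⟩
  exact torsion_unipotent_of_variableChange _ _ _ (freyCurve_eq_leg2 P) σ P.p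
    (fun Q hQ => leg2_inertia_unipotent hv P hσ Q hQ) x

/-- **(B2).** The Frey curve has no nonzero rational `p`-torsion point. -/
theorem frey_torsion_fixed_eq_zero (P : FreyPackage)
    (x : Submodule.torsionBy ℤ (P.freyCurve.toAffine⁄Qb).Point P.p)
    (hx : ∀ σ : Qb ≃ₐ[ℚ] Qb, σ • x = x) : x = 0 := by
  obtain ⟨A, hA⟩ :=
    Fermat.Agent.Lib.Helper6.exists_valuationSubring_liesOverPrime Qb Nat.prime_two
  obtain ⟨v, h1, h2, h3, h4, h5⟩ := exists_qval_of_liesOver A Nat.prime_two hA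
  have hv : QValFor A 2 v := ⟨h1, h2, h3, h4, h5⟩
  exact torsion_fixed_eq_zero_of_variableChange _ _ _ (freyCurve_eq_leg2 P) P.p
    (fun Q hQ hfix => leg2_fixed_eq_zero hv P Q hQ hfix) x hx

end Fermat.Agent.S13Lib
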