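import Fermat.Agent.Lib.S05.NodeRoots

/-!
# The pair law at a node when `2` is not a unit: valuations of the two roots (S13, part B)

Same statement as `Fermat.Agent.S05Lib.RootData.pairLaw`, but under the hypotheses
`ord (4 a) = 0`, `ord b = h > 0`, `ord 2 ≥ 0` (instead of `ord a = 0`, `ord 2 = 0`).
-/

set_option autoImplicit false
set_option linter.unusedSectionVars false
set_option linter.unusedVariables false

open Fermat.Agent.S05Lib

namespace Fermat.Agent.S13Lib.AtTwo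

variable {K : Type*} [Field K]

section roots

variable {v : QVal K} {h : ℚ} {a b x₁ x₂ z₁ z₂ : K}

variable (H : RootData a b x₁ x₂ z₁ z₂) (hc : v.Is (4 * a) 0) (hb : v.Is b h) (hh : 0 < h)
  (h2 : v.Ge (2 : K) 0)
include H hc hb hh h2

/-- orders of sum and product from orders of numerators and of the difference -/
lemma rd2_sum_is {n d : ℚ}
    (hN : v.Is (2 * ((x₁ + x₂) * (x₁ * x₂ + b) + 2 * a * x₁ * x₂)) n)
    (hD : v.Is (x₁ - x₂) d) : v.Is (z₁ + z₂) (n - 2 * d) := by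
  rw [H.sum]
  exact hN.div hD.sq

lemma rd2_sum_ge {n d : ℚ}
    (hN : v.Ge (2 * ((x₁ + x₂) * (x₁ * x₂ + b) + 2 * a * x₁ * x₂)) n)
    (hD : v.Is (x₁ - x₂) d) : v.Ge (z₁ + z₂) (n - 2 * d) := by
  rw [H.sum]
  exact hN.div_is hD.sq

lemma rd2_prod_is {m d : ℚ} (hM : v.Is (x₁ * x₂ - b) m) (hD : v.Is (x₁ - x₂) d) :
    v.Is (z₁ * z₂) (2 * m - 2 * d) := by
  rw [H.prod]
  exact hM.sq.div hD.sq

lemma rd2_prod_ge {m d : ℚ} (hM : v.Ge (x₁ * x₂ - b) m) (hD : v.Is (x₁ - x₂) d) :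
    v.Ge (z₁ * z₂) (2 * m - 2 * d) := by
  rw [H.prod]
  exact hM.sq.div_is hD.sq

lemma rd2_numer_eq :
    2 * ((x₁ + x₂) * (x₁ * x₂ + b) + 2 * a * x₁ * x₂) =
      x₁ * x₂ * (2 * (x₁ + x₂) + 4 * a) + 2 * b * (x₁ + x₂) := by ring

/-- Case I.a: both `x`'s have order `≤ 0`. -/
lemma rd2_case_le_le (h₁ : v.Le x₁ 0) (h₂ : v.Le x₂ 0) : v.Le z₁ 0 ∧ v.Le z₂ 0 := by
  -- WLOG `ord x₁ ≤ ord x₂`
  have main : ∀ {x₁ x₂ : K}, RootData a b x₁ x₂ z₁ z₂ → v.Le x₁ 0 → v.Le x₂ 0 →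
      v.ord x₁ ≤ v.ord x₂ → v.Le z₁ 0 ∧ v.Le z₂ 0 := by
    intro x₁ x₂ H h₁ h₂ hle
    have i₁ := QVal.is_ord (v := v) h₁.1
    have i₂ := QVal.is_ord (v := v) h₂.1
    set α := v.ord x₁ with hα
    set β := v.ord x₂ with hβ
    have hα0 : α ≤ 0 := h₁.2
    have hβ0 : β ≤ 0 := h₂.2
    have hD0 : x₁ - x₂ ≠ 0 := sub_ne_zero.mpr H.ne
    have hD := QVal.is_ord (v := v) hD0
    have hDge : v.Ge (x₁ - x₂) α := i₁.ge.sub (i₂.ge' hle)
    have hd : α ≤ v.ord (x₁ - x₂) := hDge.resolve_left hD0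
    have hM : v.Is (x₁ * x₂ - b) (α + β) := (i₁.mul i₂).sub_gt (hb.gt (by linarith))
    have hN : v.Ge (2 * ((x₁ + x₂) * (x₁ * x₂ + b) + 2 * a * x₁ * x₂)) (α + β + α) := by
      rw [rd2_numer_eq H hc hb hh h2]
      have h4a : v.Ge (4 * a) α := hc.ge' (by linarith)
      have t0 : v.Ge (2 * (x₁ + x₂)) α := by
        have := h2.mul (i₁.ge.add (i₂.ge' hle))
        exact this.mono (by linarith)
      have t1 : v.Ge (2 * (x₁ + x₂) + 4 * a) α := t0.add h4a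
      have t2 : v.Ge (x₁ * x₂ * (2 * (x₁ + x₂) + 4 * a)) (α + β + α) := (i₁.mul i₂).ge.mul t1
      have t3 : v.Ge (2 * b * (x₁ + x₂)) (α + β + α) := by
        have := (h2.mul hb.ge).mul (i₁.ge.add (i₂.ge' hle))
        exact this.mono (by linarith)
      exact t2.add t3
    have hP := rd2_prod_is H hc hb hh h2 hM hD
    have hS := rd2_sum_ge H hc hb hh h2 hN hD
    exact QVal.np_le hP hS (by linarith) (by linarith)
  rcases le_total (v.ord x₁) (v.ord x₂) with hle | hle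
  · exact main H h₁ h₂ hle
  · exact main H.symm h₂ h₁ hle

/-- Case I.b: `ord x₁ ≤ 0` and `0 < ord x₂ = β < h`. -/
lemma rd2_case_le_mid {β : ℚ} (h₁ : v.Le x₁ 0) (h₂ : v.Is x₂ β) (hβ0 : 0 < β) (hβh : β < h) :
    v.Is z₁ β ∧ v.Is z₂ β := by
  have i₁ := QVal.is_ord (v := v) h₁.1
  set α := v.ord x₁ with hα
  have hα0 : α ≤ 0 := h₁.2
  have hD : v.Is (x₁ - x₂) α := i₁.sub_gt (h₂.gt (by linarith))
  have hM : v.Is (x₁ * x₂ - b) (α + β) := (i₁.mul h₂).sub_gt (hb.gt (by linarith))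
  have hN : v.Ge (2 * ((x₁ + x₂) * (x₁ * x₂ + b) + 2 * a * x₁ * x₂)) (α + β + α) := by
    rw [rd2_numer_eq H hc hb hh h2]
    have h4a : v.Ge (4 * a) α := hc.ge' (by linarith)
    have t0 : v.Ge (2 * (x₁ + x₂)) α := by
      have := h2.mul (i₁.ge.add (h₂.ge' (by linarith)))
      exact this.mono (by linarith)
    have t1 : v.Ge (2 * (x₁ + x₂) + 4 * a) α := t0.add h4a
    have t2 : v.Ge (x₁ * x₂ * (2 * (x₁ + x₂) + 4 * a)) (α + β + α) := (i₁.mul h₂).ge.mul t1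
    have t3 : v.Ge (2 * b * (x₁ + x₂)) (α + β + α) := by
      have := (h2.mul hb.ge).mul (i₁.ge.add (h₂.ge' (by linarith)))
      exact this.mono (by linarith)
    exact t2.add t3
  have hP := rd2_prod_is H hc hb hh h2 hM hD
  have hS := rd2_sum_ge H hc hb hh h2 hN hD
  exact QVal.np_eq (hS.mono (by linarith)) (hP.congr (by ring))

/-- Case I.c: `ord x₁ ≤ 0` and `ord x₂ ≥ h`. -/
lemma rd2_case_le_top (h₁ : v.Le x₁ 0) (h₂ : v.Ge x₂ h) : v.Ge z₁ h ∧ v.Ge z₂ h := by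
  have i₁ := QVal.is_ord (v := v) h₁.1
  set α := v.ord x₁ with hα
  have hα0 : α ≤ 0 := h₁.2
  have hD : v.Is (x₁ - x₂) α := i₁.sub_gt (h₂.gt (by linarith))
  have hM : v.Ge (x₁ * x₂ - b) (α + h) := (i₁.ge.mul h₂).sub (hb.ge' (by linarith))
  have hN : v.Ge (2 * ((x₁ + x₂) * (x₁ * x₂ + b) + 2 * a * x₁ * x₂)) (α + h + α) := by
    rw [rd2_numer_eq H hc hb hh h2]
    have h4a : v.Ge (4 * a) α := hc.ge' (by linarith)
    have t0 : v.Ge (2 * (x₁ + x₂)) α := by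
      have := h2.mul (i₁.ge.add (h₂.mono (by linarith)))
      exact this.mono (by linarith)
    have t1 : v.Ge (2 * (x₁ + x₂) + 4 * a) α := t0.add h4a
    have t2 : v.Ge (x₁ * x₂ * (2 * (x₁ + x₂) + 4 * a)) (α + h + α) := (i₁.ge.mul h₂).mul t1
    have t3 : v.Ge (2 * b * (x₁ + x₂)) (α + h + α) := by
      have := (h2.mul hb.ge).mul (i₁.ge.add (h₂.mono (by linarith)))
      exact this.mono (by linarith)
    exact t2.add t3
  have hP := rd2_prod_ge H hc hb hh h2 hM hD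
  have hS := rd2_sum_ge H hc hb hh h2 hN hD
  exact QVal.np_ge (hS.mono (by linarith)) (hP.mono (by linarith))

/-- the numerator of the sum for two elements of positive order -/
lemma rd2_numer_is_of_pos {α β : ℚ} (h₁ : v.Is x₁ α) (h₂ : v.Ge x₂ β) (hα : 0 < α)
    (hβ : 0 < β) : v.Is (2 * (x₁ + x₂) + 4 * a) 0 := by
  have : v.Gt (x₁ + x₂) 0 := (h₁.gt hα).add (h₂.gt hβ)
  have h' : v.Gt (2 * (x₁ + x₂)) 0 := by
    have := h2.mul_gt this
    simpa using this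
  exact hc.add_gt' h'

/-- Case II.a: `0 < α < β < h`. -/
lemma rd2_case_mid_mid_lt {α β : ℚ} (h₁ : v.Is x₁ α) (h₂ : v.Is x₂ β) (hα : 0 < α)
    (hαβ : α < β) (hβ : β < h) :
    (v.Is z₁ (β - α) ∧ fx v h z₂ = oplus h α β) ∨ (v.Is z₂ (β - α) ∧ fx v h z₁ = oplus h α β) := by
  have hD : v.Is (x₁ - x₂) α := h₁.sub_gt (h₂.gt hαβ)
  have hu := rd2_numer_is_of_pos H hc hb hh h2 h₁ h₂.ge hα (by linarith)
  have hN : v.Is (2 * ((x₁ + x₂) * (x₁ * x₂ + b) + 2 * a * x₁ * x₂)) (α + β) := by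
    rw [rd2_numer_eq H hc hb hh h2]
    have t2 : v.Is (x₁ * x₂ * (2 * (x₁ + x₂) + 4 * a)) (α + β) := by
      simpa using (h₁.mul h₂).mul hu
    have t3 : v.Gt (2 * b * (x₁ + x₂)) (α + β) := by
      have := (h2.mul hb.ge).mul (h₁.ge.add (h₂.ge' hαβ.le))
      exact this.gt (by linarith)
    exact t2.add_gt t3
  have hS := rd2_sum_is H hc hb hh h2 hN hD
  have hS' : v.Is (z₁ + z₂) (β - α) := hS.congr (by ring)
  rcases lt_trichotomy (α + β) h with hlt | heq | hgt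
  · have hM : v.Is (x₁ * x₂ - b) (α + β) := (h₁.mul h₂).sub_gt (hb.gt hlt)
    have hP := rd2_prod_is H hc hb hh h2 hM hD
    have ho : oplus h α β = α + β := by unfold oplus; rw [if_pos hlt.le]
    rcases QVal.np_is_is hS' hP (by linarith) with ⟨r1, r2⟩ | ⟨r1, r2⟩
    · exact Or.inl ⟨r1, by rw [ho]; exact fx_of_is (r2.congr (by ring)) (by linarith) (by linarith)⟩
    · exact Or.inr ⟨r1, by rw [ho]; exact fx_of_is (r2.congr (by ring)) (by linarith) (by linarith)⟩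
  · have hM : v.Ge (x₁ * x₂ - b) h := ((h₁.mul h₂).ge' heq.ge).sub hb.ge
    have hP := rd2_prod_ge H hc hb hh h2 hM hD
    have ho : oplus h α β = h := by unfold oplus; rw [if_pos heq.le, heq]
    rcases QVal.np_is hS' hP (by linarith) with ⟨r1, r2⟩ | ⟨r1, r2⟩
    · exact Or.inl ⟨r1, by rw [ho]; exact fx_of_ge hh.le (r2.mono (by linarith))⟩
    · exact Or.inr ⟨r1, by rw [ho]; exact fx_of_ge hh.le (r2.mono (by linarith))⟩
  · have hM : v.Is (x₁ * x₂ - b) h := hb.sub_gt' ((h₁.mul h₂).gt hgt)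
    have hP := rd2_prod_is H hc hb hh h2 hM hD
    have ho : oplus h α β = 2 * h - (α + β) := by unfold oplus; rw [if_neg (not_le.mpr hgt)]
    rcases QVal.np_is_is hS' hP (by linarith) with ⟨r1, r2⟩ | ⟨r1, r2⟩
    · exact Or.inl ⟨r1, by rw [ho]; exact fx_of_is (r2.congr (by ring)) (by linarith) (by linarith)⟩
    · exact Or.inr ⟨r1, by rw [ho]; exact fx_of_is (r2.congr (by ring)) (by linarith) (by linarith)⟩

/-- Case II.b: `0 < α = β < h`. -/
lemma rd2_case_mid_mid_eq {α : ℚ} (h₁ : v.Is x₁ α) (h₂ : v.Is x₂ α) (hα : 0 < α)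
    (hαh : α < h) :
    (fx v h z₁ = 0 ∧ fx v h z₂ = oplus h α α) ∨ (fx v h z₂ = 0 ∧ fx v h z₁ = oplus h α α) := by
  have hD0 : x₁ - x₂ ≠ 0 := sub_ne_zero.mpr H.ne
  have hD := QVal.is_ord (v := v) hD0
  set d := v.ord (x₁ - x₂) with hd
  have hdα : α ≤ d := (h₁.ge.sub h₂.ge).resolve_left hD0
  have hu := rd2_numer_is_of_pos H hc hb hh h2 h₁ h₂.ge hα hα
  have hN : v.Is (2 * ((x₁ + x₂) * (x₁ * x₂ + b) + 2 * a * x₁ * x₂)) (α + α) := by
    rw [rd2_numer_eq H hc hb hh h2]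
    have t2 : v.Is (x₁ * x₂ * (2 * (x₁ + x₂) + 4 * a)) (α + α) := by
      simpa using (h₁.mul h₂).mul hu
    have t3 : v.Gt (2 * b * (x₁ + x₂)) (α + α) := by
      have := (h2.mul hb.ge).mul (h₁.ge.add h₂.ge)
      exact this.gt (by linarith)
    exact t2.add_gt t3
  have hS := rd2_sum_is H hc hb hh h2 hN hD
  have hS' : v.Is (z₁ + z₂) (2 * α - 2 * d) := hS.congr (by ring)
  rcases lt_trichotomy (α + α) h with hlt | heq | hgt
  · have hM : v.Is (x₁ * x₂ - b) (α + α) := (h₁.mul h₂).sub_gt (hb.gt hlt)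
    have hP := rd2_prod_is H hc hb hh h2 hM hD
    have ho : oplus h α α = α + α := by unfold oplus; rw [if_pos hlt.le]
    rcases QVal.np_is_is hS' hP (by linarith) with ⟨r1, r2⟩ | ⟨r1, r2⟩
    · exact Or.inl ⟨fx_of_is_le hh.le r1 (by linarith),
        by rw [ho]; exact fx_of_is (r2.congr (by ring)) (by linarith) (by linarith)⟩
    · exact Or.inr ⟨fx_of_is_le hh.le r1 (by linarith),
        by rw [ho]; exact fx_of_is (r2.congr (by ring)) (by linarith) (by linarith)⟩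
  · have hM : v.Ge (x₁ * x₂ - b) h := ((h₁.mul h₂).ge' heq.ge).sub hb.ge
    have hP := rd2_prod_ge H hc hb hh h2 hM hD
    have ho : oplus h α α = h := by unfold oplus; rw [if_pos heq.le, heq]
    rcases QVal.np_is hS' hP (by linarith) with ⟨r1, r2⟩ | ⟨r1, r2⟩
    · exact Or.inl ⟨fx_of_is_le hh.le r1 (by linarith),
        by rw [ho]; exact fx_of_ge hh.le (r2.mono (by linarith))⟩
    · exact Or.inr ⟨fx_of_is_le hh.le r1 (by linarith),
        by rw [ho]; exact fx_of_ge hh.le (r2.mono (by linarith))⟩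
  · have hM : v.Is (x₁ * x₂ - b) h := hb.sub_gt' ((h₁.mul h₂).gt hgt)
    have hP := rd2_prod_is H hc hb hh h2 hM hD
    have ho : oplus h α α = 2 * h - (α + α) := by unfold oplus; rw [if_neg (not_le.mpr hgt)]
    rcases QVal.np_is_is hS' hP (by linarith) with ⟨r1, r2⟩ | ⟨r1, r2⟩
    · exact Or.inl ⟨fx_of_is_le hh.le r1 (by linarith),
        by rw [ho]; exact fx_of_is (r2.congr (by ring)) (by linarith) (by linarith)⟩
    · exact Or.inr ⟨fx_of_is_le hh.le r1 (by linarith),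
        by rw [ho]; exact fx_of_is (r2.congr (by ring)) (by linarith) (by linarith)⟩

/-- Case II.c: `0 < α < h` and `ord x₂ ≥ h`. -/
lemma rd2_case_mid_top {α : ℚ} (h₁ : v.Is x₁ α) (h₂ : v.Ge x₂ h) (hα : 0 < α)
    (hαh : α < h) : v.Is z₁ (h - α) ∧ v.Is z₂ (h - α) := by
  have hD : v.Is (x₁ - x₂) α := h₁.sub_gt (h₂.gt hαh)
  have hu := rd2_numer_is_of_pos H hc hb hh h2 h₁ h₂ hα hh
  have hM : v.Is (x₁ * x₂ - b) h := hb.sub_gt' ((h₁.ge.mul h₂).gt (by linarith))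
  have hN : v.Ge (2 * ((x₁ + x₂) * (x₁ * x₂ + b) + 2 * a * x₁ * x₂)) (α + h) := by
    rw [rd2_numer_eq H hc hb hh h2]
    have t2 : v.Ge (x₁ * x₂ * (2 * (x₁ + x₂) + 4 * a)) (α + h) := by
      simpa using (h₁.ge.mul h₂).mul hu.ge
    have t3 : v.Ge (2 * b * (x₁ + x₂)) (α + h) := by
      have := (h2.mul hb.ge).mul (h₁.ge.add (h₂.mono hαh.le))
      exact this.mono (by linarith)
    exact t2.add t3
  have hP := rd2_prod_is H hc hb hh h2 hM hD
  have hS := rd2_sum_ge H hc hb hh h2 hN hD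
  exact QVal.np_eq (hS.mono (by linarith)) (hP.congr (by ring))

/-- Case III: both `x`'s have order `≥ h`. -/
lemma rd2_case_top_top (h₁ : v.Ge x₁ h) (h₂ : v.Ge x₂ h) : v.Le z₁ 0 ∧ v.Le z₂ 0 := by
  have hD0 : x₁ - x₂ ≠ 0 := sub_ne_zero.mpr H.ne
  have hD := QVal.is_ord (v := v) hD0
  set d := v.ord (x₁ - x₂) with hd
  have hdh : h ≤ d := (h₁.sub h₂).resolve_left hD0
  have hM : v.Is (x₁ * x₂ - b) h := hb.sub_gt' ((h₁.mul h₂).gt (by linarith))
  have hN : v.Ge (2 * ((x₁ + x₂) * (x₁ * x₂ + b) + 2 * a * x₁ * x₂)) (h + h) := by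
    rw [rd2_numer_eq H hc hb hh h2]
    have t0 : v.Ge (2 * (x₁ + x₂)) 0 := by
      have := h2.mul (h₁.add h₂)
      exact this.mono (by linarith)
    have t1 : v.Ge (2 * (x₁ + x₂) + 4 * a) 0 := t0.add hc.ge
    have t2 : v.Ge (x₁ * x₂ * (2 * (x₁ + x₂) + 4 * a)) (h + h) := by
      simpa using (h₁.mul h₂).mul t1
    have t3 : v.Ge (2 * b * (x₁ + x₂)) (h + h) := by
      have := (h2.mul hb.ge).mul (h₁.add h₂)
      exact this.mono (by linarith)
    exact t2.add t3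
  have hP := rd2_prod_is H hc hb hh h2 hM hD
  have hS := rd2_sum_ge H hc hb hh h2 hN hD
  exact QVal.np_le hP hS (by linarith) (by linarith)

/-- **The pair law for the two roots (2 not a unit).** -/
theorem rd2_pairLaw : PairLaw h (fx v h z₁) (fx v h z₂) (fx v h x₁) (fx v h x₂) := by
  have hh' := hh.le
  rcases fx_cases v h x₁ with c₁ | ⟨α, hα0, hαh, c₁⟩ | c₁ <;>
  rcases fx_cases v h x₂ with c₂ | ⟨β, hβ0, hβh, c₂⟩ | c₂
  · -- le, le
    obtain ⟨r1, r2⟩ := rd2_case_le_le H hc hb hh h2 c₁ c₂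
    rw [fx_of_le hh' c₁, fx_of_le hh' c₂, fx_of_le hh' r1, fx_of_le hh' r2]
    left
    unfold oplus
    simp [hh']
  · -- le, mid
    obtain ⟨r1, r2⟩ := rd2_case_le_mid H hc hb hh h2 c₁ c₂ hβ0 hβh
    rw [fx_of_le hh' c₁, fx_of_is c₂ hβ0.le hβh.le, fx_of_is r1 hβ0.le hβh.le,
      fx_of_is r2 hβ0.le hβh.le]
    left
    unfold oplus
    rw [zero_add, if_pos hβh.le, zero_sub, abs_neg, abs_of_pos hβ0]
    exact ⟨rfl, rfl⟩
  · -- le, top
    obtain ⟨r1, r2⟩ := rd2_case_le_top H hc hb hh h2 c₁ c₂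
    rw [fx_of_le hh' c₁, fx_of_ge hh' c₂, fx_of_ge hh' r1, fx_of_ge hh' r2]
    left
    unfold oplus
    rw [zero_add, if_pos le_rfl, zero_sub, abs_neg, abs_of_pos hh]
    exact ⟨rfl, rfl⟩
  · -- mid, le
    obtain ⟨r1, r2⟩ := rd2_case_le_mid H.symm hc hb hh h2 c₂ c₁ hα0 hαh
    rw [fx_of_le hh' c₂, fx_of_is c₁ hα0.le hαh.le, fx_of_is r1 hα0.le hαh.le,
      fx_of_is r2 hα0.le hαh.le]
    left
    unfold oplus
    rw [add_zero, if_pos hαh.le, sub_zero, abs_of_pos hα0]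
    exact ⟨rfl, rfl⟩
  · -- mid, mid
    rw [fx_of_is c₁ hα0.le hαh.le, fx_of_is c₂ hβ0.le hβh.le]
    rcases lt_trichotomy α β with hlt | heq | hgt
    · rcases rd2_case_mid_mid_lt H hc hb hh h2 c₁ c₂ hα0 hlt hβh with ⟨r1, r2⟩ | ⟨r1, r2⟩
      · right
        rw [r2, fx_of_is r1 (by linarith) (by linarith), abs_sub_comm, abs_of_pos (by linarith)]
        exact ⟨rfl, rfl⟩
      · left
        rw [r2, fx_of_is r1 (by linarith) (by linarith), abs_sub_comm, abs_of_pos (by linarith)]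
        exact ⟨rfl, rfl⟩
    · subst heq
      unfold PairLaw
      rw [sub_self, abs_zero]
      rcases rd2_case_mid_mid_eq H hc hb hh h2 c₁ c₂ hα0 hαh with ⟨r1, r2⟩ | ⟨r1, r2⟩
      · right
        exact ⟨r1, r2⟩
      · left
        exact ⟨r2, r1⟩
    · rcases rd2_case_mid_mid_lt H.symm hc hb hh h2 c₂ c₁ hβ0 hgt hαh with ⟨r1, r2⟩ | ⟨r1, r2⟩
      · right
        rw [r2, fx_of_is r1 (by linarith) (by linarith), abs_of_pos (by linarith), oplus_comm]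
        exact ⟨rfl, rfl⟩
      · left
        rw [r2, fx_of_is r1 (by linarith) (by linarith), abs_of_pos (by linarith), oplus_comm]
        exact ⟨rfl, rfl⟩
  · -- mid, top
    obtain ⟨r1, r2⟩ := rd2_case_mid_top H hc hb hh h2 c₁ c₂ hα0 hαh
    rw [fx_of_is c₁ hα0.le hαh.le, fx_of_ge hh' c₂, fx_of_is r1 (by linarith) (by linarith),
      fx_of_is r2 (by linarith) (by linarith)]
    left
    unfold oplus
    rw [if_neg (by linarith), abs_sub_comm, abs_of_pos (by linarith)]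
    exact ⟨by ring, rfl⟩
  · -- top, le
    obtain ⟨r1, r2⟩ := rd2_case_le_top H.symm hc hb hh h2 c₂ c₁
    rw [fx_of_le hh' c₂, fx_of_ge hh' c₁, fx_of_ge hh' r1, fx_of_ge hh' r2]
    left
    unfold oplus
    rw [add_zero, if_pos le_rfl, sub_zero, abs_of_pos hh]
    exact ⟨rfl, rfl⟩
  · -- top, mid
    obtain ⟨r1, r2⟩ := rd2_case_mid_top H.symm hc hb hh h2 c₂ c₁ hβ0 hβh
    rw [fx_of_is c₂ hβ0.le hβh.le, fx_of_ge hh' c₁, fx_of_is r1 (by linarith) (by linarith),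
      fx_of_is r2 (by linarith) (by linarith)]
    left
    unfold oplus
    rw [if_neg (by linarith), abs_of_pos (by linarith)]
    exact ⟨by ring, rfl⟩
  · -- top, top
    obtain ⟨r1, r2⟩ := rd2_case_top_top H hc hb hh h2 c₁ c₂
    rw [fx_of_ge hh' c₁, fx_of_ge hh' c₂, fx_of_le hh' r1, fx_of_le hh' r2]
    left
    unfold oplus
    rw [if_neg (by linarith), sub_self, abs_zero]
    exact ⟨by ring, rfl⟩

end roots

end Fermat.Agent.S13Lib.AtTwo
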