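import Fermat.Agent.Lib.S05.Node
import Fermat.Agent.Lib.S13.AtTwo.NodeRoots2

/-!
# The pair law at a node when `2` is not a unit, on points (S13, part B)

`W : y² = x³ + a x² + b x` with `ord (4 a) = 0`, `ord b = h > 0`, `ord 2 ≥ 0`, `2 ≠ 0`.
We prove the pair law `{fP (P+Q), fP (P-Q)} = {fP P ⊕ fP Q, |fP P - fP Q|}` and deduce
`fP (m • P) ≡ ± m fP P mod 2h`.
-/

set_option autoImplicit false
set_option linter.unusedSectionVars false
set_option linter.unusedVariables false

open WeierstrassCurve WeierstrassCurve.Affine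
open Fermat.Agent.S05Lib

namespace Fermat.Agent.S13Lib.AtTwo

variable {K : Type*} [Field K] [DecidableEq K]

section

variable {v : QVal K} {h : ℚ} {W : WeierstrassCurve K} {a b : K}

variable (hW : IsLeg W a b) (hc : v.Is (4 * a) 0) (hb : v.Is b h) (hh : 0 < h)
  (h2 : v.Ge (2 : K) 0) (h20 : (2 : K) ≠ 0)
include hW hc hb hh h2 h20

/-- duplication: `fP (2P) = fP P ⊕ fP P` -/
lemma fP_add_self2 {x y : K} (hxy : W.toAffine.Nonsingular x y) :
    fP v h (Point.some x y hxy + Point.some x y hxy) = oplus h (fx v h x) (fx v h x) := by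
  have hh' := hh.le
  have q := hW.eq_of_nonsingular hxy
  have h4 : v.Ge (4 : K) 0 := by
    have := h2.mul h2
    norm_num at this
    exact this
  have h40 : (4 : K) ≠ 0 := by
    have : (4 : K) = 2 * 2 := by norm_num
    rw [this]
    exact mul_ne_zero h20 h20
  by_cases hy : y = 0
  · subst hy
    rw [hW.add_self_of_Y_eq_zero hxy, fP_zero]
    by_cases hx : x = 0
    · rw [fx_of_ge hh' (Or.inl hx), oplus_top_top hh]
    · have hq : 4 * x ^ 2 + (4 * a) * x + 4 * b = 0 := by
        have : x * (x ^ 2 + a * x + b) = 0 := by linear_combination -q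
        have := (mul_eq_zero.mp this).resolve_left hx
        linear_combination 4 * this
      rcases fx_cases v h x with c | ⟨t, ht0, hth, c⟩ | c
      · rw [fx_of_le hh' c, oplus_zero_zero hh']
      · exfalso
        have h1 : v.Is ((4 * a) * x) t := by simpa using hc.mul c
        have h2' : v.Gt (4 * x ^ 2) t := (h4.mul c.sq.ge).gt (by linarith)
        have h3' : v.Gt (4 * b) t := (h4.mul hb.ge).gt (by linarith)
        have h3 : v.Is (4 * x ^ 2 + (4 * a) * x + 4 * b) t := (h1.add_gt' h2').add_gt h3'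
        exact h3.1 hq
      · rw [fx_of_ge hh' c, oplus_top_top hh]
  · obtain ⟨w, h', e⟩ := hW.add_self_of_Y_ne_zero h20 hxy hy
    rw [e, fP_some, hW.dup_formula h20 hxy hy]
    have hx : x ≠ 0 := by
      intro hx
      apply hy
      rw [hx] at q
      have : y ^ 2 = 0 := by rw [q]; ring
      exact pow_eq_zero_iff (two_ne_zero) |>.mp this
    have hden0 : 4 * y ^ 2 ≠ 0 := mul_ne_zero h40 (pow_ne_zero 2 hy)
    have hden_eq : 4 * y ^ 2 = x * (4 * x ^ 2 + (4 * a) * x + 4 * b) := by rw [q]; ring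
    have hq0 : 4 * x ^ 2 + (4 * a) * x + 4 * b ≠ 0 := by
      intro h0
      apply hden0
      rw [hden_eq, h0, mul_zero]
    rcases fx_cases v h x with c | ⟨t, ht0, hth, c⟩ | c
    · -- `ord x ≤ 0`
      rw [fx_of_le hh' c, oplus_zero_zero hh']
      apply fx_of_le hh'
      have i := QVal.is_ord (v := v) c.1
      set α := v.ord x with hα
      have hα0 : α ≤ 0 := c.2
      have hnum : v.Is ((x ^ 2 - b) ^ 2) (2 * (2 * α)) := (i.sq.sub_gt (hb.gt (by linarith))).sq
      have hqge : v.Ge (4 * x ^ 2 + (4 * a) * x + 4 * b) (2 * α) := by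
        have t0 : v.Ge (4 * x ^ 2) (2 * α) := (h4.mul i.sq.ge).mono (by linarith)
        have t1 : v.Ge ((4 * a) * x) (2 * α) := (hc.mul i).ge' (by linarith)
        have t2 : v.Ge (4 * b) (2 * α) := (h4.mul hb.ge).mono (by linarith)
        exact (t0.add t1).add t2
      have hqo := QVal.is_ord (v := v) hq0
      have hqo' : 2 * α ≤ v.ord (4 * x ^ 2 + (4 * a) * x + 4 * b) := hqge.resolve_left hq0
      have hden : v.Is (4 * y ^ 2) (α + v.ord (4 * x ^ 2 + (4 * a) * x + 4 * b)) := by
        rw [hden_eq]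
        exact i.mul hqo
      exact (hnum.div hden).le' (by linarith)
    · -- `0 < ord x = t < h`
      rw [fx_of_is c ht0.le hth.le]
      have h1 : v.Is ((4 * a) * x) t := by simpa using hc.mul c
      have h2' : v.Gt (4 * x ^ 2) t := (h4.mul c.sq.ge).gt (by linarith)
      have h3' : v.Gt (4 * b) t := (h4.mul hb.ge).gt (by linarith)
      have hqi : v.Is (4 * x ^ 2 + (4 * a) * x + 4 * b) t := (h1.add_gt' h2').add_gt h3'
      have hden : v.Is (4 * y ^ 2) (t + t) := by
        rw [hden_eq]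
        exact c.mul hqi
      rcases lt_trichotomy (t + t) h with hlt | heq | hgt
      · have ho : oplus h t t = t + t := by unfold oplus; rw [if_pos hlt.le]
        have hnum : v.Is ((x ^ 2 - b) ^ 2) (2 * (2 * t)) := (c.sq.sub_gt (hb.gt (by linarith))).sq
        rw [ho]
        exact fx_of_is ((hnum.div hden).congr (by ring)) (by linarith) (by linarith)
      · have ho : oplus h t t = h := by unfold oplus; rw [if_pos heq.le, heq]
        have hnum : v.Ge ((x ^ 2 - b) ^ 2) (2 * h) := ((c.sq.ge' (by linarith)).sub hb.ge).sq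
        rw [ho]
        exact fx_of_ge hh' ((hnum.div_is hden).mono (by linarith))
      · have ho : oplus h t t = 2 * h - (t + t) := by unfold oplus; rw [if_neg (not_le.mpr hgt)]
        have hnum : v.Is ((x ^ 2 - b) ^ 2) (2 * h) := (hb.sub_gt' (c.sq.gt (by linarith))).sq
        rw [ho]
        exact fx_of_is ((hnum.div hden).congr (by ring)) (by linarith) (by linarith)
    · -- `ord x ≥ h`
      rw [fx_of_ge hh' c, oplus_top_top hh]
      apply fx_of_le hh'
      have i := QVal.is_ord (v := v) hx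
      have hαh : h ≤ v.ord x := c.resolve_left hx
      have hnum : v.Is ((x ^ 2 - b) ^ 2) (2 * h) := (hb.sub_gt' (i.sq.gt (by linarith))).sq
      have hqge : v.Ge (4 * x ^ 2 + (4 * a) * x + 4 * b) h := by
        have t0 : v.Ge (4 * x ^ 2) h := (h4.mul i.sq.ge).mono (by linarith)
        have t1 : v.Ge ((4 * a) * x) h := (hc.mul i).ge' (by linarith)
        have t2 : v.Ge (4 * b) h := (h4.mul hb.ge).mono (by linarith)
        exact (t0.add t1).add t2
      have hqo := QVal.is_ord (v := v) hq0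
      have hqo' : h ≤ v.ord (4 * x ^ 2 + (4 * a) * x + 4 * b) := hqge.resolve_left hq0
      have hden : v.Is (4 * y ^ 2) (v.ord x + v.ord (4 * x ^ 2 + (4 * a) * x + 4 * b)) := by
        rw [hden_eq]
        exact i.mul hqo
      exact (hnum.div hden).le' (by linarith)

/-- **The pair law on points.** -/
theorem pairLaw_points2 (P Q : W.toAffine.Point) :
    PairLaw h (fP v h (P + Q)) (fP v h (P - Q)) (fP v h P) (fP v h Q) := by
  have hh' := hh.le
  rcases P with _ | ⟨x₁, y₁, h₁⟩
  · have e0 : (Point.zero : W.toAffine.Point) = 0 := rfl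
    rw [e0, zero_add, zero_sub, fP_neg hW, fP_zero]
    left
    rw [oplus_zero_left (fP_le hh' Q), zero_sub, abs_neg, abs_of_nonneg (fP_nonneg hh' Q)]
    exact ⟨rfl, rfl⟩
  rcases Q with _ | ⟨x₂, y₂, h₂⟩
  · have e0 : (Point.zero : W.toAffine.Point) = 0 := rfl
    rw [e0, add_zero, sub_zero, fP_zero]
    left
    rw [oplus_comm, oplus_zero_left (fP_le hh' _), sub_zero, abs_of_nonneg (fP_nonneg hh' _)]
    exact ⟨rfl, rfl⟩
  by_cases hx : x₁ = x₂
  · subst hx
    rcases Y_eq_of_X_eq h₁.1 h₂.1 rfl with hy | hy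
    · subst hy
      rw [sub_self, fP_zero, fP_some, fP_add_self2 hW hc hb hh h2 h20 h₁]
      left
      rw [sub_self, abs_zero]
      exact ⟨rfl, rfl⟩
    · rw [hW.negY_eq] at hy
      subst hy
      obtain ⟨hn, en⟩ := hW.neg_some h₂
      have e1 : Point.some x₁ (-y₂) h₁ = -Point.some x₁ y₂ h₂ := by rw [en]
      have e2 : -Point.some x₁ y₂ h₂ - Point.some x₁ y₂ h₂ =
          -(Point.some x₁ y₂ h₂ + Point.some x₁ y₂ h₂) := by abel
      rw [e1, neg_add_cancel, e2, fP_neg hW, fP_neg hW, fP_zero, fP_some,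
        fP_add_self2 hW hc hb hh h2 h20 h₂]
      right
      rw [sub_self, abs_zero]
      exact ⟨rfl, rfl⟩
  · obtain ⟨z₁, w₁, h₁', z₂, w₂, h₂', e₁, e₂, hS, hPi⟩ := hW.add_sub_of_X_ne h₁ h₂ hx
    rw [e₁, e₂, fP_some, fP_some, fP_some, fP_some]
    exact rd2_pairLaw ⟨hx, hS, hPi⟩ hc hb hh h2

/-- `fP (m • P) ≡ ± m · fP P` modulo `2h`. -/
theorem fP_nsmul_sim2 (P : W.toAffine.Point) (m : ℕ) :
    Sim h (fP v h (m • P)) (m * fP v h P) := by
  set j := fP v h P with hj
  have main : ∀ m : ℕ, Sim h (fP v h (m • P)) (m * j) ∧ Sim h (fP v h ((m + 1) • P)) ((m + 1 : ℕ) * j) := by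
    intro m
    induction m with
    | zero =>
      refine ⟨?_, ?_⟩
      · rw [zero_smul, fP_zero]
        simp only [Nat.cast_zero, zero_mul]
        exact Sim.refl _ _
      · rw [zero_add, one_smul]
        simp only [Nat.cast_one, one_mul]
        exact Sim.refl _ _
    | succ m ih =>
      obtain ⟨i0, i1⟩ := ih
      refine ⟨i1, ?_⟩
      have e1 : (m + 1) • P + P = (m + 1 + 1) • P := by rw [add_smul (m + 1) 1 P, one_smul]
      have e2 : (m + 1) • P - P = m • P := by rw [add_smul, one_smul, add_sub_cancel_right]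
      have pl := pairLaw_points2 hW hc hb hh h2 h20 ((m + 1) • P) P
      rw [e1, e2] at pl
      set s := fP v h ((m + 1) • P) with hs
      have hU : Sim h (oplus h s j) (s + j) := sim_oplus h s j
      have hV : Sim h |s - j| (s - j) := sim_abs h s j
      have c1 : ((m + 1 : ℕ) : ℚ) * j + j = ((m + 1 + 1 : ℕ) : ℚ) * j := by push_cast; ring
      have c2 : ((m + 1 : ℕ) : ℚ) * j - j = (m : ℚ) * j := by push_cast; ring
      have key := sim_add_sub (j := j) i1
      rw [c1, c2] at key
      rcases key with ⟨k1, k2⟩ | ⟨k1, k2⟩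
      · -- U ~ (m+2) j, V ~ m j
        rcases pl with ⟨pa, pb⟩ | ⟨pa, pb⟩
        · rw [pa]; exact hU.trans k1
        · -- A = V ~ m j, B = U ~ (m+2) j
          have hB : Sim h (fP v h (m • P)) (((m + 1 + 1 : ℕ) : ℚ) * j) := by
            rw [pb]; exact hU.trans k1
          have hmm : Sim h ((m : ℚ) * j) (((m + 1 + 1 : ℕ) : ℚ) * j) := i0.symm.trans hB
          rw [pa]
          exact (hV.trans k2).trans hmm
      · -- U ~ m j, V ~ (m+2) j
        rcases pl with ⟨pa, pb⟩ | ⟨pa, pb⟩
        · have hB : Sim h (fP v h (m • P)) (((m + 1 + 1 : ℕ) : ℚ) * j) := by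
            rw [pb]; exact hV.trans k2
          have hmm : Sim h ((m : ℚ) * j) (((m + 1 + 1 : ℕ) : ℚ) * j) := i0.symm.trans hB
          rw [pa]
          exact (hU.trans k1).trans hmm
        · rw [pa]; exact hV.trans k2
  exact (main m).1

/-- If `n • P = 0` then `n · fP P ∈ 2h ℤ`. -/
theorem nsmul_fP_mem2 (P : W.toAffine.Point) {n : ℕ} (hn : n • P = 0) :
    ∃ k : ℤ, (n : ℚ) * fP v h P = 2 * h * k := by
  have := fP_nsmul_sim2 hW hc hb hh h2 h20 P n
  rw [hn, fP_zero] at this
  obtain ⟨k, hk | hk⟩ := this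
  · exact ⟨-k, by push_cast; linarith⟩
  · exact ⟨k, by linarith⟩

/-- The identity component `fP = 0` is closed under `±`. -/
theorem fP_add_sub_eq_zero {P Q : W.toAffine.Point} (hP : fP v h P = 0) (hQ : fP v h Q = 0) :
    fP v h (P + Q) = 0 ∧ fP v h (P - Q) = 0 := by
  have pl := pairLaw_points2 hW hc hb hh h2 h20 P Q
  unfold PairLaw at pl
  rw [hP, hQ, sub_self, abs_zero, oplus_zero_zero hh.le] at pl
  rcases pl with ⟨p1, p2⟩ | ⟨p1, p2⟩ <;> exact ⟨p1, p2⟩

/-- multiples of a point of the identity component stay there -/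
theorem fP_nsmul_eq_zero {P : W.toAffine.Point} (hP : fP v h P = 0) (k : ℕ) :
    fP v h (k • P) = 0 := by
  induction k with
  | zero => rw [zero_smul, fP_zero]
  | succ k ih =>
    rw [succ_nsmul]
    exact (fP_add_sub_eq_zero hW hc hb hh h2 h20 ih hP).1

end

/-- `fP P = 0` means `P = O` or `ord x(P) ≤ 0`. -/
lemma fP_eq_zero_iff {v : QVal K} {h : ℚ} {W : WeierstrassCurve K} (hh : 0 < h) {x y : K}
    (hxy : W.toAffine.Nonsingular x y) : fP v h (Point.some x y hxy) = 0 ↔ v.Le x 0 := by
  rw [fP_some]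
  constructor
  · intro h0
    rcases fx_cases v h x with c | ⟨t, ht0, hth, c⟩ | c
    · exact c
    · rw [fx_of_is c ht0.le hth.le] at h0
      linarith
    · rw [fx_of_ge hh.le c] at h0
      linarith
  · intro hle
    exact fx_of_le hh.le hle

end Fermat.Agent.S13Lib.AtTwo
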