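import Fermat.Agent.Lib.S13.AtTwo.Close2

/-!
# Local main theorems at `2` (S13, part B)

`W : η² = x³ + a x² + b x` over `(K, v)` with `ord 2 > 0`, `4 a` a unit, `a - 1/4` integral,
`ord b = h > 0` (multiplicative reduction of the minimal model `y² + x y = x³ + (a-1/4) x² + b x`).

* `map_sub_fixed2`: an inertia-like `σ` satisfies `(σ - 1)² = 0` on `n`-torsion, `n` odd.
* `eq_zero_of_rational2`: an `n`-torsion point (`n ≥ 5` prime, `n ∤ 2 ord b / ord 2`) all of whose
  multiples have coordinates in a subfield with value group `ℤ · ord 2` and residue field `𝔽₂` is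
  trivial.
-/

set_option autoImplicit false
set_option linter.unusedSectionVars false
set_option linter.unusedVariables false

open WeierstrassCurve WeierstrassCurve.Affine
open Fermat.Agent.S05Lib

namespace Fermat.Agent.S13Lib.AtTwo

variable {K : Type*} [Field K] [DecidableEq K]

section

variable {v : QVal K} {W : WeierstrassCurve K} {a b : K} {σ : K →+* K}
  {T : W.toAffine.Point →+ W.toAffine.Point}

lemma inertiaLike_gt_map (hT : InertiaLike v W σ T) {z : K} {t : ℚ} (hz : v.Gt z t) :
    v.Gt (σ z) t := by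
  rcases hz with h | h
  · exact Or.inl (by rw [h, map_zero])
  · exact Or.inr (by rw [hT.ord_map]; exact h)

variable {h : ℚ} (hW : IsLeg W a b) (hc : v.Is (4 * a) 0) (ha₂ : v.Ge (a - 1 / 4) 0)
  (hb : v.Is b h) (hh : 0 < h) (h2 : v.Gt (2 : K) 0) (h20 : (2 : K) ≠ 0)
include hW hc ha₂ hb hh h2 h20

/-- A torsion point (of order prime to the residue characteristic) of the identity component which
is not `O` has unit `x`-coordinate. -/
lemma is_x_of_fP_eq_zero {n : ℕ} (hn : v.Is (n : K) 0) {x η : K}
    (hxy : W.toAffine.Nonsingular x η) (hP0 : fP v h (Point.some x η hxy) = 0)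
    (hnP : n • Point.some x η hxy = 0) : v.Is x 0 := by
  have hle : v.Le x 0 := (fP_eq_zero_iff hh hxy).mp hP0
  rcases hle.2.lt_or_eq with hlt | heq
  · exfalso
    have hτ : 0 < -v.ord x := by linarith
    have hin : InE v (-v.ord x) (Point.some x η hxy) := by
      rw [inE_some]
      exact ⟨hle.1, by linarith⟩
    have := eq_zero_of_inE_of_nsmul2 hW hc.ge (hb.ge' hh.le) h2.ge h20 hτ hin hn hnP
    exact Point.some_ne_zero _ this
  · exact ⟨hle.1, heq⟩

/-- On the identity component, inertia fixes torsion of order prime to the residue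
characteristic. -/
theorem map_eq_of_fP_eq_zero2 (hT : InertiaLike v W σ T) {n : ℕ} (hn : v.Is (n : K) 0)
    {P : W.toAffine.Point} (hP0 : fP v h P = 0) (hnP : n • P = 0) : T P = P := by
  rcases P with _ | ⟨x, η, hxy⟩
  · have e0 : (Point.zero : W.toAffine.Point) = 0 := rfl
    rw [e0, map_zero]
  · have hx : v.Is x 0 := is_x_of_fP_eq_zero hW hc ha₂ hb hh h2 h20 hn hxy hP0 hnP
    obtain ⟨h', e⟩ := hT.map_some x η hxy
    have hyint := y_integral2 hW ha₂ (hb.ge' hh.le) h20 hxy hx.ge
    have hyy : v.Gt ((σ η - σ x / 2) - (η - x / 2)) 0 := by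
      have := hT.inert (η - x / 2) hyint
      rwa [map_sub, map_div₀, map_ofNat] at this
    obtain ⟨τ, hτ, hin⟩ := exists_inE_sub_of_close2 hW hc ha₂ (hb.ge' hh.le) h2 h20 hxy h' hx
      (hT.inert x hx.ge) hyy
    rw [← e] at hin
    have e2 : n • (T (Point.some x η hxy) - Point.some x η hxy) = 0 := by
      rw [smul_sub, ← map_nsmul, hnP, map_zero, sub_zero]
    have := eq_zero_of_inE_of_nsmul2 hW hc.ge (hb.ge' hh.le) h2.ge h20 hτ hin hn e2
    exact sub_eq_zero.mp this

/-- A square root of `4 a` is fixed by inertia (because `(γ + 1) / 2` is integral). -/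
lemma map_sqrt_eq (hT : InertiaLike v W σ T) (hσa : σ a = a) {γ : K} (hγ : γ ^ 2 = 4 * a) :
    σ γ = γ := by
  have hγi : v.Is γ 0 := QVal.is_zero_of_sq hγ hc
  have h1 : (σ γ) ^ 2 = γ ^ 2 := by rw [← map_pow, hγ, map_mul, map_ofNat, hσa]
  have : (σ γ - γ) * (σ γ + γ) = 0 := by linear_combination h1
  rcases mul_eq_zero.mp this with h0 | h0
  · exact sub_eq_zero.mp h0
  · exfalso
    have hneg : σ γ = -γ := by linear_combination h0
    have h40 : (4 : K) ≠ 0 := by
      have : (4 : K) = 2 * 2 := by norm_num
      rw [this]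
      exact mul_ne_zero h20 h20
    have hα : v.Ge ((γ + 1) / 2) 0 := by
      have q : ((γ + 1) / 2) ^ 2 - (γ + 1) / 2 = a - 1 / 4 := by
        field_simp
        linear_combination 4 * hγ
      set α := (γ + 1) / 2 with hαdef
      by_contra hcon
      have hα0 : α ≠ 0 := fun h => hcon (Or.inl h)
      have hαneg : v.ord α < 0 := by
        by_contra h
        exact hcon (Or.inr (not_lt.mp h))
      have i := QVal.is_ord (v := v) hα0
      have := i.sq.sub_gt (i.gt (by linarith : 2 * v.ord α < v.ord α))
      rw [q] at this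
      exact this.not_ge ha₂ (by linarith)
    have hin := hT.inert _ hα
    have e2 : σ ((γ + 1) / 2) - (γ + 1) / 2 = -γ := by
      rw [map_div₀, map_add, hneg, map_one, map_ofNat]
      field_simp
      ring
    rw [e2] at hin
    exact hγi.neg.not_gt hin le_rfl

/-- **`(σ - 1)² = 0` on odd torsion at a node in residue characteristic `2`.** -/
theorem map_sub_fixed2 (hT : InertiaLike v W σ T) {n : ℕ} (hn : v.Is (n : K) 0) (hodd : Odd n)
    (hsq : ∀ z : K, ∃ y, y ^ 2 = z) (hσa : σ a = a)
    {P : W.toAffine.Point} (hnP : n • P = 0) : T (T P - P) = T P - P := by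
  have hh' := hh.le
  set j := fP v h P with hj
  have hj0 : 0 ≤ j := fP_nonneg hh' P
  have hjh : j ≤ h := fP_le hh' P
  obtain ⟨k, hk⟩ := nsmul_fP_mem2 hW hc hb hh h2.ge h20 P hnP
  have hnQ : n • (T P - P) = 0 := by
    rw [smul_sub, ← map_nsmul, hnP, map_zero, sub_zero]
  rcases hj0.lt_or_eq with hpos | hzero
  · rcases hjh.lt_or_eq with hlt | heq
    · -- a point on a non-identity component of the node
      rcases P with _ | ⟨x, η, hxy⟩
      · exfalso
        have : j = 0 := by rw [hj]; rfl
        linarith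
      · have hxj : v.Is x j := by
          rw [hj, fP_some] at hpos hlt ⊢
          rcases fx_cases v h x with c | ⟨t, ht0, hth, c⟩ | c
          · rw [fx_of_le hh' c] at hpos
            exact absurd hpos (lt_irrefl _)
          · rw [fx_of_is c ht0.le hth.le]
            exact c
          · rw [fx_of_ge hh' c] at hlt
            exact absurd hlt (lt_irrefl _)
        obtain ⟨γ, hγ⟩ := hsq (4 * a)
        have hσγ : σ γ = γ := map_sqrt_eq hW hc ha₂ hb hh h2 h20 hT hσa hγ
        obtain ⟨h', e⟩ := hT.map_some x η hxy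
        have hQ : fP v h (T (Point.some x η hxy) - Point.some x η hxy) = 0 := by
          rw [e]
          rcases branch_dichotomy hW hb.ge hγ h20 hxy hxj hpos hlt with hbr | hbr
          · refine fP_sub_eq_zero_of_same_branch hW hc hh hγ h20 h' hxy (hT.is_map hxj) hxj hpos
              ?_ hbr
            have := inertiaLike_gt_map hT hbr
            rwa [map_add, map_div₀, map_mul, hσγ, map_ofNat] at this
          · have hγ' : (-γ) ^ 2 = 4 * a := by rw [neg_sq, hγ]
            have hbr' : v.Gt (η + -γ * x / 2) j := by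
              have e1 : η + -γ * x / 2 = η - γ * x / 2 := by ring
              rw [e1]
              exact hbr
            refine fP_sub_eq_zero_of_same_branch hW hc hh hγ' h20 h' hxy (hT.is_map hxj) hxj hpos
              ?_ hbr'
            have := inertiaLike_gt_map hT hbr'
            rwa [map_add, map_div₀, map_mul, map_neg, hσγ, map_ofNat] at this
        exact map_eq_of_fP_eq_zero2 hW hc ha₂ hb hh h2 h20 hT hn hQ hnQ
    · -- `fP P = h` is impossible for odd `n`
      exfalso
      rw [← hj, heq] at hk
      have hh0 : h ≠ 0 := hh.ne'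
      have : (n : ℚ) = 2 * k := by
        have : h * (n : ℚ) = h * (2 * k) := by linarith
        exact mul_left_cancel₀ hh0 this
      have hZ : (n : ℤ) = 2 * k := by exact_mod_cast this
      obtain ⟨m, hm⟩ := hodd
      omega
  · have := map_eq_of_fP_eq_zero2 hW hc ha₂ hb hh h2 h20 hT hn hzero.symm hnP
    rw [this, sub_self, map_zero]

end

end Fermat.Agent.S13Lib.AtTwo
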