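import Fermat.Agent.Lib.S05.KernelReduction

/-!
# The kernel of reduction on `y² = x³ + a x² + b x` when `2` is not a unit (S13, part B)

Here `4 a` and `b` are integral and `2` is integral (not necessarily a unit); this is the shape of
the `2`-adically minimal model `y² + x y = x³ + a₂ x² + a₄ x` after `η = y + x / 2`
(`a = a₂ + 1/4`).  `E_τ = {O} ∪ {ord x ≤ -τ}` (`τ > 0`) is still closed under `±`, and
`ξ = 1/x` satisfies `ξ(P+Q) + ξ(P-Q) ≡ 2ξ(P) + 2ξ(Q)` modulo order `2τ`; hence `ξ(kP) ≡ k² ξ(P)`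
and `E_τ` has no `n`-torsion for `n` a unit.  (Points of order `2` may lie in `E_τ` now.)
-/

set_option autoImplicit false
set_option linter.unusedSectionVars false
set_option linter.unusedVariables false

open WeierstrassCurve WeierstrassCurve.Affine
open Fermat.Agent.S05Lib

namespace Fermat.Agent.S13Lib.AtTwo

variable {K : Type*} [Field K] [DecidableEq K]

section

variable {v : QVal K} {W : WeierstrassCurve K} {a b : K}

/-- the key estimate for doubling (now `2 P = O` is possible) -/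
lemma inE_two_smul_aux2 (hW : IsLeg W a b) (hc : v.Ge (4 * a) 0) (hb : v.Ge b 0)
    (h2 : v.Ge (2 : K) 0) (h20 : (2 : K) ≠ 0)
    {τ : ℚ} (hτ : 0 < τ) {x y : K} (hxy : W.toAffine.Nonsingular x y) (h : v.Le x (-τ)) :
    InE v τ (Point.some x y hxy + Point.some x y hxy) ∧
      v.Ge (xi (Point.some x y hxy + Point.some x y hxy) - 4 * x⁻¹) (2 * τ) := by
  have q := hW.eq_of_nonsingular hxy
  have hx0 := h.1
  set u := x⁻¹ with hu
  have hxu : x = u⁻¹ := by rw [hu, inv_inv]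
  have hu0 : u ≠ 0 := inv_ne_zero hx0
  have hux : v.Is u (-v.ord x) := (QVal.is_ord (v := v) hx0).inv
  set t := -v.ord x with ht
  have htτ : τ ≤ t := by rw [ht]; linarith [h.2]
  have h4 : v.Ge (4 : K) 0 := by
    have := h2.mul h2
    norm_num at this
    exact this
  have h40 : (4 : K) ≠ 0 := by
    have : (4 : K) = 2 * 2 := by norm_num
    rw [this]
    exact mul_ne_zero h20 h20
  by_cases hy : y = 0
  · subst hy
    rw [hW.add_self_of_Y_eq_zero hxy, xi_zero]
    refine ⟨trivial, ?_⟩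
    -- `x² + a x + b = 0`, hence `4 u = -(4 a) u² - 4 b u³`
    have hq : x ^ 2 + a * x + b = 0 := by
      have : x * (x ^ 2 + a * x + b) = 0 := by linear_combination -q
      exact (mul_eq_zero.mp this).resolve_left hx0
    have e : 0 - 4 * u = (4 * a) * u ^ 2 + 4 * b * u ^ 3 := by
      have : u ^ 3 * (4 * (x ^ 2 + a * x + b)) = 0 := by rw [hq]; ring
      rw [hxu] at this
      field_simp at this
      linear_combination -this
    rw [e]
    have t1 : v.Ge ((4 * a) * u ^ 2) (2 * τ) := by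
      have := hc.mul (hux.pow 2).ge
      exact this.mono (by push_cast; linarith)
    have t2 : v.Ge (4 * b * u ^ 3) (2 * τ) := by
      have := (h4.mul hb).mul (hux.pow 3).ge
      exact this.mono (by push_cast; linarith)
    exact t1.add t2
  · obtain ⟨w, h', e⟩ := hW.add_self_of_Y_ne_zero h20 hxy hy
    rw [e, inE_some, xi_some, hW.dup_formula h20 hxy hy]
    -- D = 1 - b u², N = 4 + (4a) u + 4 b u²
    have hD : v.Is (1 - b * u ^ 2) 0 := by
      apply QVal.is_one.sub_gt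
      have := hb.mul (hux.pow 2).ge
      exact this.gt (by push_cast; linarith)
    have hN : v.Ge (4 + (4 * a) * u + 4 * b * u ^ 2) 0 := by
      have h1 : v.Ge ((4 * a) * u) 0 := (hc.mul hux.ge).mono (by linarith)
      have h2' : v.Ge (4 * b * u ^ 2) 0 :=
        ((h4.mul hb).mul (hux.pow 2).ge).mono (by push_cast; linarith)
      exact (h4.add h1).add h2'
    have hD0 := hD.1
    have hN0 : 4 + (4 * a) * u + 4 * b * u ^ 2 ≠ 0 := by
      intro h0
      apply hy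
      have : 4 * y ^ 2 = 0 := by
        rw [q, hxu]
        have : (4 : K) * ((u⁻¹) ^ 3 + a * (u⁻¹) ^ 2 + b * u⁻¹) =
            (u⁻¹) ^ 3 * (4 + (4 * a) * u + 4 * b * u ^ 2) := by
          field_simp
        rw [this, h0, mul_zero]
      have : y ^ 2 = 0 := (mul_eq_zero.mp this).resolve_left h40
      exact pow_eq_zero_iff (two_ne_zero) |>.mp this
    have key : (x ^ 2 - b) ^ 2 / (4 * y ^ 2) =
        (1 - b * u ^ 2) ^ 2 / (u * (4 + (4 * a) * u + 4 * b * u ^ 2)) := by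
      rw [q, hxu]
      field_simp
    rw [key]
    have hNo := QVal.is_ord (v := v) hN0
    have hNo' : 0 ≤ v.ord (4 + (4 * a) * u + 4 * b * u ^ 2) := hN.resolve_left hN0
    have hden : v.Is (u * (4 + (4 * a) * u + 4 * b * u ^ 2))
        (t + v.ord (4 + (4 * a) * u + 4 * b * u ^ 2)) := hux.mul hNo
    have hnum : v.Is ((1 - b * u ^ 2) ^ 2) 0 := by simpa using hD.pow 2
    constructor
    · have := hnum.div hden
      exact this.le' (by linarith)
    · have e1 : ((1 - b * u ^ 2) ^ 2 / (u * (4 + (4 * a) * u + 4 * b * u ^ 2)))⁻¹ - 4 * u =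
          u * ((4 * a) * u + 12 * b * u ^ 2 - 4 * b ^ 2 * u ^ 4) / (1 - b * u ^ 2) ^ 2 := by
        field_simp
        ring
      rw [e1]
      have hbr : v.Ge ((4 * a) * u + 12 * b * u ^ 2 - 4 * b ^ 2 * u ^ 4) t := by
        have h1 : v.Ge ((4 * a) * u) t := (hc.mul hux.ge).mono (by linarith)
        have h12 : v.Ge (12 : K) 0 := by
          have e : (12 : K) = 4 * (2 + 1) := by norm_num
          rw [e]
          simpa using h4.mul (h2.add QVal.is_one.ge)
        have h2' : v.Ge (12 * b * u ^ 2) t := by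
          have := (h12.mul hb).mul (hux.pow 2).ge
          exact this.mono (by push_cast; linarith)
        have h3'' : v.Ge (4 * b ^ 2 * u ^ 4) t := by
          have := (h4.mul (hb.pow 2)).mul (hux.pow 4).ge
          exact this.mono (by push_cast; linarith)
        exact (h1.add h2').sub h3''
      have := (hux.ge.mul hbr).div_is hnum
      exact this.mono (by linarith)

/-- the key estimate for two points with distinct `x`-coordinates -/
lemma inE_add_sub_aux2 (hW : IsLeg W a b) (hc : v.Ge (4 * a) 0) (hb : v.Ge b 0)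
    (h2 : v.Ge (2 : K) 0)
    {τ : ℚ} (hτ : 0 < τ) {x₁ y₁ x₂ y₂ : K} (h₁ : W.toAffine.Nonsingular x₁ y₁)
    (h₂ : W.toAffine.Nonsingular x₂ y₂) (hx : x₁ ≠ x₂) (hP : v.Le x₁ (-τ)) (hQ : v.Le x₂ (-τ)) :
    InE v τ (Point.some x₁ y₁ h₁ + Point.some x₂ y₂ h₂) ∧
    InE v τ (Point.some x₁ y₁ h₁ - Point.some x₂ y₂ h₂) ∧
    v.Ge (xi (Point.some x₁ y₁ h₁ + Point.some x₂ y₂ h₂) +
      xi (Point.some x₁ y₁ h₁ - Point.some x₂ y₂ h₂) - 2 * x₁⁻¹ - 2 * x₂⁻¹) (2 * τ) := by
  obtain ⟨z₁, w₁, h₁', z₂, w₂, h₂', e₁, e₂, hS, hPi⟩ := hW.add_sub_of_X_ne h₁ h₂ hx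
  rw [e₁, e₂, inE_some, inE_some, xi_some, xi_some]
  have hx₁ := hP.1
  have hx₂ := hQ.1
  set u := x₁⁻¹ with hu
  set w := x₂⁻¹ with hw
  have hxu : x₁ = u⁻¹ := by rw [hu, inv_inv]
  have hxw : x₂ = w⁻¹ := by rw [hw, inv_inv]
  have hu0 : u ≠ 0 := inv_ne_zero hx₁
  have hw0 : w ≠ 0 := inv_ne_zero hx₂
  have huw : w - u ≠ 0 := by
    intro h
    apply hx
    rw [hxu, hxw]
    have : w = u := by linear_combination h
    rw [this]
  have hu' : v.Ge u τ := (QVal.is_ord (v := v) hx₁).inv.ge' (by linarith [hP.2])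
  have hw' : v.Ge w τ := (QVal.is_ord (v := v) hx₂).inv.ge' (by linarith [hQ.2])
  have hbuw : v.Ge (b * u * w) (2 * τ) := by
    have := (hb.mul hu').mul hw'
    exact this.mono (by linarith)
  have hD : v.Is (1 - b * u * w) 0 := QVal.is_one.sub_gt (hbuw.gt (by linarith))
  have hD0 := hD.1
  have hD2 : v.Is ((1 - b * u * w) ^ 2) 0 := by simpa using hD.pow 2
  have hPi' : z₁ * z₂ = (1 - b * u * w) ^ 2 / (w - u) ^ 2 := by
    rw [hPi, hxu, hxw]
    field_simp
  have hS' : z₁ + z₂ = (2 * (u + w) * (1 + b * u * w) + (4 * a) * u * w) / (w - u) ^ 2 := by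
    rw [hS, hxu, hxw]
    field_simp
    ring
  have hz : z₁ * z₂ ≠ 0 := by
    rw [hPi']
    exact div_ne_zero (pow_ne_zero 2 hD0) (pow_ne_zero 2 huw)
  have hz₁ : z₁ ≠ 0 := left_ne_zero_of_mul hz
  have hz₂ : z₂ ≠ 0 := right_ne_zero_of_mul hz
  have hsum : z₁⁻¹ + z₂⁻¹ =
      (2 * (u + w) * (1 + b * u * w) + (4 * a) * u * w) / (1 - b * u * w) ^ 2 := by
    have : z₁⁻¹ + z₂⁻¹ = (z₁ + z₂) / (z₁ * z₂) := by field_simp; ring
    rw [this, hS', hPi']
    field_simp
  have hprod : z₁⁻¹ * z₂⁻¹ = (w - u) ^ 2 / (1 - b * u * w) ^ 2 := by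
    rw [← mul_inv, hPi', inv_div]
  have h1buw : v.Ge (1 + b * u * w) 0 := QVal.is_one.ge.add (hbuw.mono (by linarith))
  have hauw : v.Ge ((4 * a) * u * w) (2 * τ) := by
    have := (hc.mul hu').mul hw'
    exact this.mono (by linarith)
  have hgeS : v.Ge (z₁⁻¹ + z₂⁻¹) τ := by
    rw [hsum]
    have h3 : v.Ge (2 * (u + w) * (1 + b * u * w)) τ := by
      have := (h2.mul (hu'.add hw')).mul h1buw
      exact this.mono (by linarith)
    have := (h3.add (hauw.mono (by linarith))).div_is hD2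
    exact this.mono (by linarith)
  have hgeP : v.Ge (z₁⁻¹ * z₂⁻¹) (2 * τ) := by
    rw [hprod]
    have := ((hw'.sub hu').pow 2).div_is hD2
    exact this.mono (by push_cast; linarith)
  obtain ⟨g₁, g₂⟩ := QVal.np_ge hgeS hgeP
  have conv : ∀ z : K, z ≠ 0 → v.Ge z⁻¹ τ → v.Le z (-τ) := by
    intro z hz hge
    refine ⟨hz, ?_⟩
    rcases hge with h0 | h0
    · exact absurd h0 (inv_ne_zero hz)
    · rw [v.ord_inv hz] at h0
      linarith
  refine ⟨conv z₁ hz₁ g₁, conv z₂ hz₂ g₂, ?_⟩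
  have e3 : z₁⁻¹ + z₂⁻¹ - 2 * u - 2 * w =
      (2 * (u + w) * (3 * b * u * w - b ^ 2 * u ^ 2 * w ^ 2) + (4 * a) * u * w) /
        (1 - b * u * w) ^ 2 := by
    have hD2' : (1 - b * u * w) ^ 2 ≠ 0 := pow_ne_zero 2 hD0
    rw [hsum, eq_div_iff hD2', sub_mul, sub_mul, div_mul_cancel₀ _ hD2']
    ring
  rw [e3]
  have h3' : v.Ge (3 : K) 0 := by
    have e : (3 : K) = 2 + 1 := by norm_num
    rw [e]
    exact h2.add QVal.is_one.ge
  have t1 : v.Ge (3 * b * u * w - b ^ 2 * u ^ 2 * w ^ 2) τ := by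
    have a1 : v.Ge (3 * b * u * w) τ := by
      have := ((h3'.mul hb).mul hu').mul hw'
      exact this.mono (by linarith)
    have a2 : v.Ge (b ^ 2 * u ^ 2 * w ^ 2) τ := by
      have := ((hb.pow 2).mul (hu'.pow 2)).mul (hw'.pow 2)
      exact this.mono (by push_cast; linarith)
    exact a1.sub a2
  have t2 : v.Ge (2 * (u + w) * (3 * b * u * w - b ^ 2 * u ^ 2 * w ^ 2)) (2 * τ) := by
    have := (h2.mul (hu'.add hw')).mul t1
    exact this.mono (by linarith)
  have := (t2.add hauw).div_is hD2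
  exact this.mono (by linarith)

/-- **Part A1.** `E_τ` is closed under `±` and `ξ(P+Q) + ξ(P-Q) ≡ 2ξ(P) + 2ξ(Q)` mod order `2τ`. -/
theorem inE_add_sub2 (hW : IsLeg W a b) (hc : v.Ge (4 * a) 0) (hb : v.Ge b 0)
    (h2 : v.Ge (2 : K) 0) (h20 : (2 : K) ≠ 0)
    {τ : ℚ} (hτ : 0 < τ) {P Q : W.toAffine.Point} (hP : InE v τ P) (hQ : InE v τ Q) :
    InE v τ (P + Q) ∧ InE v τ (P - Q) ∧
      v.Ge (xi (P + Q) + xi (P - Q) - 2 * xi P - 2 * xi Q) (2 * τ) := by
  rcases P with _ | ⟨x₁, y₁, h₁⟩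
  · have e0 : (Point.zero : W.toAffine.Point) = 0 := rfl
    rw [e0, zero_add, zero_sub, xi_neg hW, xi_zero]
    refine ⟨hQ, hQ.neg hW, ?_⟩
    have : xi Q + xi Q - 2 * 0 - 2 * xi Q = 0 := by ring
    rw [this]
    exact QVal.ge_zero'
  rcases Q with _ | ⟨x₂, y₂, h₂⟩
  · have e0 : (Point.zero : W.toAffine.Point) = 0 := rfl
    rw [e0, add_zero, sub_zero, xi_zero]
    refine ⟨hP, hP, ?_⟩
    have : xi (Point.some x₁ y₁ h₁) + xi (Point.some x₁ y₁ h₁) - 2 * xi (Point.some x₁ y₁ h₁) -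
        2 * 0 = 0 := by ring
    rw [this]
    exact QVal.ge_zero'
  have hP' : v.Le x₁ (-τ) := hP
  have hQ' : v.Le x₂ (-τ) := hQ
  by_cases hx : x₁ = x₂
  · subst hx
    rcases Y_eq_of_X_eq h₁.1 h₂.1 rfl with hy | hy
    · subst hy
      obtain ⟨i1, i2⟩ := inE_two_smul_aux2 hW hc hb h2 h20 hτ h₁ hP'
      rw [sub_self, xi_zero, xi_some]
      refine ⟨i1, trivial, ?_⟩
      convert i2 using 1
      ring
    · rw [hW.negY_eq] at hy
      subst hy
      obtain ⟨hn, en⟩ := hW.neg_some h₂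
      have e1 : Point.some x₁ (-y₂) h₁ = -Point.some x₁ y₂ h₂ := by
        rw [en]
      rw [e1, neg_add_cancel, xi_zero, xi_neg hW, xi_some]
      have e2 : -Point.some x₁ y₂ h₂ - Point.some x₁ y₂ h₂ =
          -(Point.some x₁ y₂ h₂ + Point.some x₁ y₂ h₂) := by abel
      rw [e2, xi_neg hW]
      obtain ⟨i1, i2⟩ := inE_two_smul_aux2 hW hc hb h2 h20 hτ h₂ hQ'
      refine ⟨trivial, i1.neg hW, ?_⟩
      convert i2 using 1
      ring
  · exact inE_add_sub_aux2 hW hc hb h2 hτ h₁ h₂ hx hP' hQ'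

/-- **Part A2.** `ξ(kP) ≡ k² ξ(P)` modulo order `2τ`. -/
theorem xi_nsmul2 (hW : IsLeg W a b) (hc : v.Ge (4 * a) 0) (hb : v.Ge b 0)
    (h2 : v.Ge (2 : K) 0) (h20 : (2 : K) ≠ 0)
    {τ : ℚ} (hτ : 0 < τ) {P : W.toAffine.Point} (hP : InE v τ P) (k : ℕ) :
    InE v τ (k • P) ∧ v.Ge (xi (k • P) - (k : K) ^ 2 * xi P) (2 * τ) := by
  have main : ∀ k : ℕ, (InE v τ (k • P) ∧ v.Ge (xi (k • P) - (k : K) ^ 2 * xi P) (2 * τ)) ∧
      (InE v τ ((k + 1) • P) ∧ v.Ge (xi ((k + 1) • P) - ((k + 1 : ℕ) : K) ^ 2 * xi P) (2 * τ)) := by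
    intro k
    induction k with
    | zero =>
      refine ⟨⟨by rw [zero_smul]; trivial, ?_⟩, ⟨by rw [zero_add, one_smul]; exact hP, ?_⟩⟩
      · rw [zero_smul, xi_zero]
        simp only [Nat.cast_zero, ne_eq, OfNat.ofNat_ne_zero, not_false_eq_true, zero_pow, zero_mul,
          sub_zero]
        exact QVal.ge_zero'
      · rw [zero_add, one_smul]
        simp only [Nat.cast_one, one_pow, one_mul, sub_self]
        exact QVal.ge_zero'
    | succ k ih =>
      obtain ⟨⟨i0, g0⟩, ⟨i1, g1⟩⟩ := ih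
      refine ⟨⟨i1, g1⟩, ?_⟩
      obtain ⟨j1, j2, j3⟩ := inE_add_sub2 hW hc hb h2 h20 hτ i1 hP
      have e1 : (k + 1) • P + P = (k + 1 + 1) • P := by rw [add_smul (k + 1) 1 P, one_smul]
      have e2 : (k + 1) • P - P = k • P := by rw [add_smul, one_smul, add_sub_cancel_right]
      rw [e1, e2] at j3
      rw [e1] at j1
      refine ⟨j1, ?_⟩
      have : xi ((k + 1 + 1) • P) - ((k + 1 + 1 : ℕ) : K) ^ 2 * xi P =
          (xi ((k + 1 + 1) • P) + xi (k • P) - 2 * xi ((k + 1) • P) - 2 * xi P) -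
          (xi (k • P) - (k : K) ^ 2 * xi P) +
          2 * (xi ((k + 1) • P) - ((k + 1 : ℕ) : K) ^ 2 * xi P) := by
        push_cast
        ring
      rw [this]
      exact (j3.sub g0).add ((h2.mul g1).mono (by linarith))
  exact (main k).1

/-- **Part A3.** `E_τ` has no nonzero `n`-torsion when `n` is a unit. -/
theorem eq_zero_of_inE_of_nsmul2 (hW : IsLeg W a b) (hc : v.Ge (4 * a) 0) (hb : v.Ge b 0)
    (h2 : v.Ge (2 : K) 0) (h20 : (2 : K) ≠ 0) {τ : ℚ} (hτ : 0 < τ) {P : W.toAffine.Point}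
    (hP : InE v τ P) {n : ℕ} (hn : v.Is (n : K) 0) (hnP : n • P = 0) : P = 0 := by
  rcases P with _ | ⟨x, y, hxy⟩
  · rfl
  · exfalso
    have hP' : v.Le x (-τ) := hP
    -- work at the exact depth t = -ord x
    set t := -v.ord x with ht
    have ht0 : 0 < t := by rw [ht]; linarith [hP'.2]
    have hP'' : InE v t (Point.some x y hxy) := by
      rw [inE_some]
      exact ⟨hP'.1, by rw [ht]; linarith⟩
    obtain ⟨_, g⟩ := xi_nsmul2 hW hc hb h2 h20 ht0 hP'' n
    rw [hnP, xi_zero, xi_some, zero_sub] at g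
    have hu : v.Is x⁻¹ t := (QVal.is_ord (v := v) hP'.1).inv
    have : v.Is (-((n : K) ^ 2 * x⁻¹)) t := by
      have := ((hn.pow 2).mul hu).neg
      simpa using this
    exact this.not_ge g (by linarith)

end

end Fermat.Agent.S13Lib.AtTwo
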