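import Fermat.Agent.Lib.S05.Roots
import Fermat.Agent.Lib.S13.AtTwo.Kernel2
import Fermat.Agent.Lib.S13.AtTwo.Node2

/-!
# Close points and branches at a node in residue characteristic `2` (S13, part B)

`W : η² = x³ + a x² + b x` with `4 a` a unit, `a - 1/4` integral, `ord 2 > 0`; the minimal model is
`y² + x y = x³ + (a - 1/4) x² + b x` with `y = η - x / 2`.

* `exists_inE_sub_of_close2`: two points with unit `x`-coordinate which are congruent in the
  minimal model differ by an element of the kernel of reduction.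
* `branch_dichotomy`, `fP_sub_eq_zero_of_same_branch`: a point with `0 < ord x = f < ord b` lies on
  exactly one of the two branches `ord (η ± γ x / 2) > f` (`γ² = 4 a`) at the node, and two points
  on the same branch with the same `f` differ by a point of the identity component.
-/

set_option autoImplicit false
set_option linter.unusedSectionVars false
set_option linter.unusedVariables false

open WeierstrassCurve WeierstrassCurve.Affine
open Fermat.Agent.S05Lib

namespace Fermat.Agent.S13Lib.AtTwo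

variable {K : Type*} [Field K] [DecidableEq K]

section

variable {v : QVal K} {W : WeierstrassCurve K} {a b : K}

/-- the equation of the minimal model in terms of `y = η - x / 2` -/
lemma min_equation (hW : IsLeg W a b) (h20 : (2 : K) ≠ 0) {x η : K}
    (hxy : W.toAffine.Nonsingular x η) :
    (η - x / 2) ^ 2 + x * (η - x / 2) = x ^ 3 + (a - 1 / 4) * x ^ 2 + b * x := by
  have q := hW.eq_of_nonsingular hxy
  have h40 : (4 : K) ≠ 0 := by
    have : (4 : K) = 2 * 2 := by norm_num
    rw [this]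
    exact mul_ne_zero h20 h20
  field_simp
  linear_combination 16 * q

/-- integrality of `y = η - x / 2` for an integral `x` -/
lemma y_integral2 (hW : IsLeg W a b) (ha₂ : v.Ge (a - 1 / 4) 0) (hb : v.Ge b 0)
    (h20 : (2 : K) ≠ 0) {x η : K} (hxy : W.toAffine.Nonsingular x η) (hx : v.Ge x 0) :
    v.Ge (η - x / 2) 0 := by
  have q := min_equation hW h20 hxy
  set y := η - x / 2 with hy
  by_contra hcon
  have hy0 : y ≠ 0 := fun h => hcon (Or.inl h)
  have hyneg : v.ord y < 0 := by
    by_contra h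
    exact hcon (Or.inr (not_lt.mp h))
  have i := QVal.is_ord (v := v) hy0
  have h1 : v.Is (y ^ 2) (2 * v.ord y) := i.sq
  have h2' : v.Gt (x * y) (2 * v.ord y) := (hx.mul i.ge).gt (by linarith)
  have h3 : v.Gt (x ^ 3 + (a - 1 / 4) * x ^ 2 + b * x) (2 * v.ord y) := by
    have t1 : v.Ge (x ^ 3) 0 := by simpa using hx.pow 3
    have t2 : v.Ge ((a - 1 / 4) * x ^ 2) 0 := by simpa using ha₂.mul (hx.pow 2)
    have t3 : v.Ge (b * x) 0 := by simpa using hb.mul hx
    exact ((t1.add t2).add t3).gt (by linarith)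
  have h4 := (h1.add_gt h2').sub_gt h3
  apply h4.1
  rw [q]
  ring

/-- `2 η = 2 y + x` is a unit when `x` is a unit -/
lemma two_eta_is (hW : IsLeg W a b) (hc : v.Is (4 * a) 0) (hb : v.Ge b 0) (h2 : v.Gt (2 : K) 0)
    {x η : K} (hxy : W.toAffine.Nonsingular x η) (hx : v.Is x 0) : v.Is (2 * η) 0 := by
  have q := hW.eq_of_nonsingular hxy
  have h4 : v.Gt (4 : K) 0 := by
    have := h2.mul_ge h2.ge
    norm_num at this
    exact this
  have e : (2 * η) ^ 2 = (4 * a) * x ^ 2 + 4 * x ^ 3 + 4 * (b * x) := by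
    linear_combination 4 * q
  apply QVal.is_zero_of_sq e
  have t1 : v.Is ((4 * a) * x ^ 2) 0 := by simpa using hc.mul (hx.pow 2)
  have t2 : v.Gt (4 * x ^ 3) 0 := by simpa using h4.mul_ge (hx.pow 3).ge
  have t3 : v.Gt (4 * (b * x)) 0 := by simpa using h4.mul_ge (hb.mul hx.ge)
  exact (t1.add_gt t2).add_gt t3

/-- **Close points.** If `P = (x, η)` has unit `x`-coordinate and `P' = (x', η')` is congruent to
`P` in the coordinates `(x, y = η - x / 2)` of the minimal model, then `P' - P` lies in the kernel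
of reduction. -/
theorem exists_inE_sub_of_close2 (hW : IsLeg W a b) (hc : v.Is (4 * a) 0)
    (ha₂ : v.Ge (a - 1 / 4) 0) (hb : v.Ge b 0) (h2 : v.Gt (2 : K) 0) (h20 : (2 : K) ≠ 0)
    {x η x' η' : K} (h : W.toAffine.Nonsingular x η) (h' : W.toAffine.Nonsingular x' η')
    (hx : v.Is x 0) (hxx : v.Gt (x' - x) 0) (hyy : v.Gt ((η' - x' / 2) - (η - x / 2)) 0) :
    ∃ τ : ℚ, 0 < τ ∧ InE v τ (Point.some x' η' h' - Point.some x η h) := by
  have h2η := two_eta_is hW hc hb h2 h hx
  have hx' : v.Ge x' 0 := by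
    have : x' = x + (x' - x) := by ring
    rw [this]
    exact hx.ge.add hxx.ge
  by_cases hxe : x' = x
  · subst hxe
    by_cases hye : η' = η
    · subst hye
      exact ⟨1, one_pos, by rw [sub_self]; trivial⟩
    · exfalso
      have hyn : η' = -η := by
        rcases Y_eq_of_X_eq h'.1 h.1 rfl with e | e
        · exact absurd e hye
        · rwa [hW.negY_eq] at e
      subst hyn
      have e : (-η - x' / 2) - (η - x' / 2) = -(2 * η) := by ring
      rw [e] at hyy
      exact h2η.neg.not_gt hyy le_rfl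
  · obtain ⟨hn, en⟩ := hW.neg_some h
    rw [sub_eq_add_neg, en]
    obtain ⟨w, hw, e⟩ := hW.add_of_X_ne h' hn hxe
    rw [e]
    have hd : x' - x ≠ 0 := sub_ne_zero.mpr hxe
    have hdo : v.Is (x' - x) (v.ord (x' - x)) := QVal.is_ord hd
    have hdpos : 0 < v.ord (x' - x) := by
      rcases hxx with h0 | h0
      · exact absurd h0 hd
      · exact h0
    set δ := v.ord (x' - x) with hδ
    -- `μ = (ε + 2 η) / (x' - x)` has negative order
    have hnum : v.Is (((η' - x' / 2) - (η - x / 2)) + 2 * η) 0 := h2η.add_gt' hyy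
    have hμ : v.Is ((((η' - x' / 2) - (η - x / 2)) + 2 * η) / (x' - x)) (-δ) := by
      have := hnum.div hdo
      convert this using 1
      ring
    set μ := (((η' - x' / 2) - (η - x / 2)) + 2 * η) / (x' - x) with hμdef
    have eμ : (η' - -η) / (x' - x) = μ + 1 / 2 := by
      rw [hμdef]
      field_simp
      ring
    have ex : ((η' - -η) / (x' - x)) ^ 2 - a - x' - x =
        μ ^ 2 + (μ - (a - 1 / 4) - x' - x) := by
      rw [eμ]
      have h40 : (4 : K) ≠ 0 := by
        have : (4 : K) = 2 * 2 := by norm_num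
        rw [this]
        exact mul_ne_zero h20 h20
      field_simp
      ring
    have hμ2 := hμ.sq
    have hrest : v.Gt (μ - (a - 1 / 4) - x' - x) (2 * -δ) := by
      have t1 : v.Gt μ (2 * -δ) := hμ.gt (by linarith)
      have t2 : v.Gt (a - 1 / 4) (2 * -δ) := ha₂.gt (by linarith)
      have t3 : v.Gt x' (2 * -δ) := hx'.gt (by linarith)
      have t4 : v.Gt x (2 * -δ) := hx.ge.gt (by linarith)
      exact ((t1.sub t2).sub t3).sub t4
    have hz := hμ2.add_gt hrest
    refine ⟨2 * δ, by linarith, ?_⟩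
    rw [inE_some, ex]
    exact hz.le' (by linarith)

/-! ### Branches at the node -/

/-- A point with `0 < ord x = f < ord b` lies on one of the two branches. -/
lemma branch_dichotomy (hW : IsLeg W a b) {h f : ℚ} (hb : v.Ge b h) {γ : K} (hγ : γ ^ 2 = 4 * a)
    (h20 : (2 : K) ≠ 0)
    {x η : K} (hxy : W.toAffine.Nonsingular x η) (hx : v.Is x f) (hf0 : 0 < f) (hfh : f < h) :
    v.Gt (η + γ * x / 2) f ∨ v.Gt (η - γ * x / 2) f := by
  have q := hW.eq_of_nonsingular hxy
  have h40 : (4 : K) ≠ 0 := by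
    have : (4 : K) = 2 * 2 := by norm_num
    rw [this]
    exact mul_ne_zero h20 h20
  have e : (η + γ * x / 2) * (η - γ * x / 2) = x ^ 3 + b * x := by
    field_simp
    linear_combination 4 * q - x ^ 2 * hγ
  have hprod : v.Gt ((η + γ * x / 2) * (η - γ * x / 2)) (2 * f) := by
    rw [e]
    have t1 : v.Gt (x ^ 3) (2 * f) := (hx.pow 3).gt (by push_cast; linarith)
    have t2 : v.Gt (b * x) (2 * f) := (hb.mul hx.ge).gt (by linarith)
    exact t1.add t2
  rcases QVal.le_or_gt (v := v) (η + γ * x / 2) f with h1 | h1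
  · rcases QVal.le_or_gt (v := v) (η - γ * x / 2) f with h2' | h2'
    · exfalso
      exact (h1.mul h2').not_gt hprod (by linarith)
    · exact Or.inr h2'
  · exact Or.inl h1

/-- Two points with the same `f = ord x ∈ (0, ord b)` on the same branch differ by a point of the
identity component. -/
theorem fP_sub_eq_zero_of_same_branch (hW : IsLeg W a b) (hc : v.Is (4 * a) 0) {h f : ℚ}
    (hh : 0 < h) {γ : K} (hγ : γ ^ 2 = 4 * a) (h20 : (2 : K) ≠ 0)
    {x₁ η₁ x₂ η₂ : K} (h₁ : W.toAffine.Nonsingular x₁ η₁) (h₂ : W.toAffine.Nonsingular x₂ η₂)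
    (hx₁ : v.Is x₁ f) (hx₂ : v.Is x₂ f) (hf0 : 0 < f)
    (hu₁ : v.Gt (η₁ + γ * x₁ / 2) f) (hu₂ : v.Gt (η₂ + γ * x₂ / 2) f) :
    fP v h (Point.some x₁ η₁ h₁ - Point.some x₂ η₂ h₂) = 0 := by
  have hγi : v.Is γ 0 := QVal.is_zero_of_sq hγ hc
  by_cases hxe : x₁ = x₂
  · subst hxe
    by_cases hye : η₁ = η₂
    · subst hye
      rw [sub_self, fP_zero]
    · exfalso
      have hyn : η₁ = -η₂ := by
        rcases Y_eq_of_X_eq h₁.1 h₂.1 rfl with e | e
        · exact absurd e hye
        · rwa [hW.negY_eq] at e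
      subst hyn
      have hs := hu₁.add hu₂
      have e : -η₂ + γ * x₁ / 2 + (η₂ + γ * x₁ / 2) = γ * x₁ := by
        field_simp
        ring
      rw [e] at hs
      have : v.Is (γ * x₁) f := by simpa using hγi.mul hx₁
      exact this.not_gt hs le_rfl
  · obtain ⟨hn, en⟩ := hW.neg_some h₂
    rw [sub_eq_add_neg, en]
    obtain ⟨w, hw, e⟩ := hW.add_of_X_ne h₁ hn hxe
    rw [e, fP_some]
    apply fx_of_le hh.le
    have hd : x₁ - x₂ ≠ 0 := sub_ne_zero.mpr hxe
    have hdo : v.Is (x₁ - x₂) (v.ord (x₁ - x₂)) := QVal.is_ord hd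
    set d := v.ord (x₁ - x₂) with hddef
    have hdf : f ≤ d := (hx₁.ge.sub hx₂.ge).resolve_left hd
    set u₁ := η₁ + γ * x₁ / 2 with hu₁def
    set u₂ := η₂ + γ * x₂ / 2 with hu₂def
    have h40 : (4 : K) ≠ 0 := by
      have : (4 : K) = 2 * 2 := by norm_num
      rw [this]
      exact mul_ne_zero h20 h20
    have ex : ((η₁ - -η₂) / (x₁ - x₂)) ^ 2 - a - x₁ - x₂ =
        ((4 * a) * (x₁ * x₂) - γ * (x₁ + x₂) * (u₁ + u₂) + (u₁ + u₂) ^ 2) / (x₁ - x₂) ^ 2 -
          (x₁ + x₂) := by
      rw [hu₁def, hu₂def]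
      field_simp
      linear_combination ((x₁ + x₂) ^ 2) * hγ
    rw [ex]
    have hT : v.Ge (x₁ + x₂) f := hx₁.ge.add hx₂.ge
    have hU : v.Gt (u₁ + u₂) f := hu₁.add hu₂
    have t1 : v.Is ((4 * a) * (x₁ * x₂)) (2 * f) := by
      have := hc.mul (hx₁.mul hx₂)
      exact this.congr (by ring)
    have t2 : v.Gt (γ * (x₁ + x₂) * (u₁ + u₂)) (2 * f) := by
      have := (hγi.ge.mul hT).mul_gt hU
      exact this.mono (by linarith)
    have t3 : v.Gt ((u₁ + u₂) ^ 2) (2 * f) := by
      have := hU.mul_ge hU.ge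
      rw [← sq] at this
      exact this.mono (by linarith)
    have hN : v.Is ((4 * a) * (x₁ * x₂) - γ * (x₁ + x₂) * (u₁ + u₂) + (u₁ + u₂) ^ 2) (2 * f) :=
      (t1.sub_gt t2).add_gt t3
    have hfrac := hN.div hdo.sq
    have hz := hfrac.sub_gt (hT.gt (by linarith : 2 * f - 2 * d < f))
    exact hz.le' (by linarith)

end

end Fermat.Agent.S13Lib.AtTwo
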